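import Fermat.Agent.Specialization.Torsion
import Mathlib.Algebra.MvPolynomial.PDeriv
import Mathlib.RingTheory.Unramified.Field

/-!
# Simple approximate zeros over an algebraically closed field with a valuation of rank one

A system of polynomial equations with surjective linearisation at a zero modulo the maximal ideal
has an integral zero with that reduction. No completeness is needed: the polynomials tending to
zero along the successive approximations form a prime ideal whose residue field has no
differentials, hence is the base field.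
-/

set_option autoImplicit false
set_option linter.style.haveILetI false
set_option linter.unusedSectionVars false

noncomputable section

namespace FLTAgent.Jac27.Lift

open MvPolynomial FLTAgent.Specialization

/-- The first order expansion. -/
theorem eval₂_add_sq {R S σ : Type*} [CommRing R] [CommRing S] [Fintype σ] (φ : R →+* S)
    (c h : σ → S) (hh : ∀ i j, h i * h j = 0) (P : MvPolynomial σ R) :
    eval₂ φ (c + h) P = eval₂ φ c P + ∑ i, h i * eval₂ φ c (pderiv i P) := by
  classical
  induction P using MvPolynomial.induction_on with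
  | C a => simp
  | add p q hp hq =>
    simp only [eval₂_add, map_add, hp, hq, mul_add, Finset.sum_add_distrib]
    ring
  | mul_X p j hp =>
    have e : ∀ i, eval₂ φ c (pderiv i (p * X j)) =
        eval₂ φ c (pderiv i p) * c j + eval₂ φ c p * (if i = j then 1 else 0) := fun i => by
      rw [pderiv_mul, eval₂_add, eval₂_mul, eval₂_mul, eval₂_X, pderiv_X, Pi.single_apply]
      by_cases hij : i = j
      · simp [hij]
      · simp [hij, Ne.symm hij]
    have h0 : (∑ i, h i * eval₂ φ c (pderiv i p)) * h j = 0 := by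
      rw [Finset.sum_mul]
      exact Finset.sum_eq_zero fun i _ => by rw [mul_right_comm, hh, zero_mul]
    simp only [eval₂_mul, eval₂_X, hp, e, mul_add, Finset.sum_add_distrib, mul_ite, mul_one,
      mul_zero, Finset.sum_ite_eq', Finset.mem_univ, if_true, Pi.add_apply]
    rw [Finset.sum_congr rfl fun i (_ : i ∈ Finset.univ) => (mul_assoc (h i) _ (c j)).symm,
      ← Finset.sum_mul]
    linear_combination h0

/-- The derivative of a substitution. -/
theorem pderiv_aeval {R σ τ : Type*} [CommRing R] [Fintype σ] (g : σ → MvPolynomial τ R) (j : τ)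
    (P : MvPolynomial σ R) :
    pderiv j (aeval g P) = ∑ i, aeval g (pderiv i P) * pderiv j (g i) := by
  classical
  induction P using MvPolynomial.induction_on with
  | C a => simp
  | add p q hp hq => simp only [map_add, hp, hq, add_mul, Finset.sum_add_distrib]
  | mul_X p i hp =>
    simp only [map_mul, aeval_X, pderiv_mul, hp, map_add, pderiv_X, Pi.single_apply, add_mul,
      Finset.sum_add_distrib, Finset.sum_mul]
    congr 1
    · exact Finset.sum_congr rfl fun l _ => by ring
    · rw [Finset.sum_eq_single i (fun l _ hl => by rw [if_neg (Ne.symm hl)]; simp)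
        (fun h => absurd (Finset.mem_univ i) h), if_pos rfl]
      simp

variable {L k : Type*} [Field L] [Field k] {A : ValuationSubring L} {π : A →+* k}

theorem exists_div_eq {x : L} {b : A} (hb : b ≠ 0) (h : x / (b : L) ∈ A) :
    ∃ r : A, x = (b : L) * r :=
  ⟨⟨_, h⟩, (mul_div_cancel₀ x fun h0 => hb (Subtype.ext h0)).symm⟩

theorem pow_mul_mem (hA : RankOne π) {a : A} (ha : π a = 0) (ha0 : a ≠ 0) (b : L) :
    ∃ M : ℕ, (a : L) ^ M * b ∈ A := by
  rcases eq_or_ne b 0 with rfl | hb
  · exact ⟨0, by simp⟩
  obtain ⟨M, hM⟩ := hA a b⁻¹ ha ha0 (inv_ne_zero hb)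
  refine ⟨M, ?_⟩
  have h := (A.mem_or_inv_mem (b⁻¹ / (a : L) ^ M)).resolve_left hM
  rwa [inv_div, div_inv_eq_mul] at h

/-- A square system congruent to the identity at the origin has a zero in the maximal ideal. -/
theorem hensel_square [IsAlgClosed L] (hπ : Function.Surjective π) (hA : RankOne π) {τ : Type*}
    [Fintype τ] [DecidableEq τ] (Q : τ → MvPolynomial τ A) (h0 : ∀ t, π (eval 0 (Q t)) = 0)
    (hJ : ∀ t s, π (eval 0 (pderiv s (Q t))) = if t = s then 1 else 0) :
    ∃ z : τ → A, (∀ t, π (z t) = 0) ∧ ∀ t, eval z (Q t) = 0 := by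
  classical
  by_cases hall : ∀ t, eval 0 (Q t) = 0
  · exact ⟨0, fun t => map_zero π, hall⟩
  -- a small element dominating the errors
  obtain ⟨a, ha, ha0, hq, hd⟩ : ∃ a : A, π a = 0 ∧ a ≠ 0 ∧ (∀ t, a ∣ eval 0 (Q t)) ∧
      ∀ t s, a ∣ eval 0 (pderiv s (Q t)) - (if t = s then 1 else 0) := by
    let e : τ ⊕ τ × τ → A := Sum.elim (fun t => eval 0 (Q t))
      fun q => eval 0 (pderiv q.2 (Q q.1)) - (if q.1 = q.2 then 1 else 0)
    have he : ∀ i, π (e i) = 0 := by
      rintro (t | ⟨t, s⟩)
      · exact h0 t
      · simp only [e, Sum.elim_inr, map_sub, hJ]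
        split_ifs <;> simp
    have hne : (fun i => (e i : L)) ≠ 0 := fun h =>
      hall fun t => Subtype.ext (congrFun h (Sum.inl t))
    obtain ⟨s', i, hs, hi⟩ := (Reduction.base_total hπ).exists_scale_family hne
    have hdvd : ∀ j, e i ∣ e j := fun j => ⟨⟨s' * e j, hs j⟩, Subtype.ext (by
      show (e j : L) = (e i : L) * (s' * (e j : L))
      rw [← mul_assoc, mul_comm (e i : L), hi, one_mul])⟩
    exact ⟨e i, he i, fun h => by simp [h] at hi, fun t => hdvd (.inl t),
      fun t s => hdvd (.inr (t, s))⟩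
  have haL : (a : L) ≠ 0 := fun h => ha0 (Subtype.ext h)
  have hmod : ∀ (z : τ → A), (∀ s, a ∣ z s) → ∀ p : MvPolynomial τ A, a ∣ eval z p - eval 0 p := by
    intro z hz p
    induction p using MvPolynomial.induction_on with
    | C c => simp
    | add p q hp hq' =>
      simp only [map_add, add_sub_add_comm]
      exact dvd_add hp hq'
    | mul_X p s _ =>
      simp only [map_mul, eval_X, Pi.zero_apply, mul_zero, sub_zero]
      exact (hz s).mul_left _
  -- successive approximations
  let z : ℕ → τ → A := fun n => Nat.rec (motive := fun _ => τ → A) 0 (fun _ w t => w t - eval w (Q t)) n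
  have hz : ∀ n, (∀ t, a ∣ z n t) ∧ ∀ t, a ^ (n + 1) ∣ eval (z n) (Q t) := by
    intro n
    induction n with
    | zero => exact ⟨fun t => dvd_zero a, fun t => by rw [pow_one]; exact hq t⟩
    | succ n ih =>
      obtain ⟨hzn, hQn⟩ := ih
      refine ⟨fun t => dvd_sub (hzn t) (dvd_trans (dvd_pow_self a n.succ_ne_zero) (hQn t)),
        fun t => ?_⟩
      set φ := Ideal.Quotient.mk (Ideal.span {a ^ (n + 2)})
      refine Ideal.mem_span_singleton.1 (Ideal.Quotient.eq_zero_iff_mem.1 ?_)
      have hh : ∀ i j, φ (-eval (z n) (Q i)) * φ (-eval (z n) (Q j)) = 0 := fun i j => by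
        rw [← map_mul, Ideal.Quotient.eq_zero_iff_mem, Ideal.mem_span_singleton, neg_mul_neg]
        exact dvd_trans (pow_dvd_pow a (by omega : n + 2 ≤ (n + 1) + (n + 1)))
          (pow_add a (n + 1) (n + 1) ▸ mul_dvd_mul (hQn i) (hQn j))
      have hexp := eval₂_add_sq φ (fun i => φ (z n i)) (fun i => φ (-eval (z n) (Q i))) hh (Q t)
      have e1 : ∀ (w : τ → A) (p : MvPolynomial τ A),
          eval₂ φ (fun i => φ (w i)) p = φ (eval w p) := fun w p => (eval₂_comp φ w p).symm
      have e2 : (fun i => φ (z n i)) + (fun i => φ (-eval (z n) (Q i))) =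
          fun i => φ (z (n + 1) i) := funext fun i => by
        show φ (z n i) + φ (-eval (z n) (Q i)) = φ (z n i - eval (z n) (Q i))
        rw [← map_add, sub_eq_add_neg]
      rw [e2, e1] at hexp
      simp only [e1] at hexp
      refine hexp.trans ?_
      rw [← Finset.add_sum_erase _ _ (Finset.mem_univ t), ← add_assoc]
      have hterm : ∀ s, φ (-eval (z n) (Q s)) * φ (eval (z n) (pderiv s (Q t))) =
          φ (-eval (z n) (Q s)) * φ (if t = s then 1 else 0) := fun s => by
        rw [← sub_eq_zero, ← mul_sub, ← map_sub, ← map_mul, Ideal.Quotient.eq_zero_iff_mem,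
          Ideal.mem_span_singleton, pow_succ, neg_mul]
        refine (dvd_neg).2 (mul_dvd_mul (hQn s) ?_)
        have := dvd_add (hmod _ hzn (pderiv s (Q t))) (hd t s)
        rwa [sub_add_sub_cancel] at this
      rw [hterm, if_pos rfl, map_one, mul_one, map_neg, add_neg_cancel, zero_add]
      exact Finset.sum_eq_zero fun s hs => by
        rw [hterm, if_neg (Finset.ne_of_mem_erase hs).symm, map_zero, mul_zero]
  have hcauchy : ∀ n n', n ≤ n' → ∀ t, a ^ n ∣ z n' t - z n t := by
    intro n n' h
    induction n', h using Nat.le_induction with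
    | base => simp
    | succ n' h ih =>
      intro t
      have h1 : a ^ n ∣ eval (z n') (Q t) := dvd_trans (pow_dvd_pow a (by omega)) ((hz n').2 t)
      have e : z (n' + 1) t - z n t = (z n' t - z n t) - eval (z n') (Q t) := by
        show z n' t - eval (z n') (Q t) - z n t = _
        ring
      rw [e]
      exact dvd_sub (ih t) h1
  let zL : ℕ → τ → L := fun n t => Subtype.val (z n t)
  have hbdd : ∀ R : MvPolynomial τ L, ∃ M, ∀ n, (a : L) ^ M * eval (zL n) R ∈ A := by
    intro R
    induction R using MvPolynomial.induction_on with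
    | C c =>
      obtain ⟨M, hM⟩ := pow_mul_mem hA ha ha0 c
      exact ⟨M, fun n => by rwa [eval_C]⟩
    | add p q hp hq' =>
      obtain ⟨M, hM⟩ := hp
      obtain ⟨M', hM'⟩ := hq'
      refine ⟨M + M', fun n => ?_⟩
      rw [map_add, show (a : L) ^ (M + M') * (eval (zL n) p + eval (zL n) q) =
        (a : L) ^ M' * ((a : L) ^ M * eval (zL n) p) + (a : L) ^ M * ((a : L) ^ M' * eval (zL n) q) by
          ring]
      exact add_mem (mul_mem (pow_mem a.2 _) (hM n)) (mul_mem (pow_mem a.2 _) (hM' n))
    | mul_X p s hp =>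
      obtain ⟨M, hM⟩ := hp
      exact ⟨M, fun n => by rw [map_mul, eval_X, ← mul_assoc]; exact mul_mem (hM n) (z n s).2⟩
  have hdiff : ∀ R : MvPolynomial τ L, ∃ M, ∀ n n', n ≤ n' →
      (a : L) ^ M * (eval (zL n') R - eval (zL n) R) / (a : L) ^ n ∈ A := by
    intro R
    induction R using MvPolynomial.induction_on with
    | C c => exact ⟨0, fun n n' _ => by simp⟩
    | add p q hp hq' =>
      obtain ⟨M, hM⟩ := hp
      obtain ⟨M', hM'⟩ := hq'
      refine ⟨M + M', fun n n' h => ?_⟩
      rw [map_add, map_add, show (a : L) ^ (M + M') * (eval (zL n') p + eval (zL n') q -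
          (eval (zL n) p + eval (zL n) q)) / (a : L) ^ n =
        (a : L) ^ M' * ((a : L) ^ M * (eval (zL n') p - eval (zL n) p) / (a : L) ^ n) +
          (a : L) ^ M * ((a : L) ^ M' * (eval (zL n') q - eval (zL n) q) / (a : L) ^ n) by ring]
      exact add_mem (mul_mem (pow_mem a.2 _) (hM n n' h)) (mul_mem (pow_mem a.2 _) (hM' n n' h))
    | mul_X p s hp =>
      obtain ⟨M, hM⟩ := hp
      obtain ⟨M', hM'⟩ := hbdd p
      refine ⟨M + M', fun n n' h => ?_⟩
      obtain ⟨r, hr⟩ := hcauchy n n' h s
      have e : zL n' s = zL n s + (a : L) ^ n * (r : L) := by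
        have := congrArg Subtype.val hr
        push_cast at this
        show (z n' s : L) = (z n s : L) + _
        linear_combination this
      rw [map_mul, map_mul, eval_X, eval_X, e, show (a : L) ^ (M + M') * (eval (zL n') p *
          (zL n s + (a : L) ^ n * r) - eval (zL n) p * zL n s) / (a : L) ^ n =
        (a : L) ^ M' * ((a : L) ^ M * (eval (zL n') p - eval (zL n) p) / (a : L) ^ n) * zL n s +
          (a : L) ^ M * ((a : L) ^ M' * eval (zL n') p) * r by
            field_simp
            ring]
      exact add_mem (mul_mem (mul_mem (pow_mem a.2 _) (hM n n' h)) (z n s).2)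
        (mul_mem (mul_mem (pow_mem a.2 _) (hM' n')) r.2)
  -- the ideal of the limit
  let I : Ideal (MvPolynomial τ L) :=
    { carrier := {R | ∀ N, ∃ n₀, ∀ n, n₀ ≤ n → eval (zL n) R / (a : L) ^ N ∈ A}
      zero_mem' := fun N => ⟨0, fun n _ => by simp⟩
      add_mem' := fun {p q} hp hq' N => by
        obtain ⟨n₀, hn⟩ := hp N
        obtain ⟨n₁, hn'⟩ := hq' N
        exact ⟨max n₀ n₁, fun n h => by
          rw [map_add, add_div]; exact add_mem (hn n (by omega)) (hn' n (by omega))⟩
      smul_mem' := fun c p hp N => by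
        obtain ⟨M, hM⟩ := hbdd c
        obtain ⟨n₀, hn⟩ := hp (N + M)
        refine ⟨n₀, fun n h => ?_⟩
        rw [smul_eq_mul, map_mul, show eval (zL n) c * eval (zL n) p / (a : L) ^ N =
          ((a : L) ^ M * eval (zL n) c) * (eval (zL n) p / (a : L) ^ (N + M)) by
            rw [pow_add]; field_simp]
        exact mul_mem (hM n) (hn n h) }
  have hunit : ∀ {v : L}, (∃ h : v ∈ A, π ⟨v, h⟩ ≠ 0) → v / (a : L) ^ 1 ∉ A := by
    rintro v ⟨hv, hne⟩ hmem
    rw [pow_one] at hmem
    refine hne ?_
    rw [show (⟨v, hv⟩ : A) = a * ⟨_, hmem⟩ from Subtype.ext (mul_div_cancel₀ v haL).symm,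
      map_mul, ha, zero_mul]
  haveI hIprime : I.IsPrime := by
    refine ⟨fun h => ?_, fun {R S} hRS => or_iff_not_imp_left.2 fun hR => ?_⟩
    · obtain ⟨n₀, hn⟩ := (h ▸ Submodule.mem_top : (1 : MvPolynomial τ L) ∈ I) 1
      exact hunit ⟨one_mem A, by
        rw [show (⟨1, one_mem A⟩ : A) = 1 from rfl, map_one]; exact one_ne_zero⟩
        (by simpa using hn n₀ le_rfl)
    · obtain ⟨N, hN⟩ : ∃ N, ∀ n₀, ∃ n, n₀ ≤ n ∧ eval (zL n) R / (a : L) ^ N ∉ A := by
        by_contra hc
        push Not at hc
        exact hR hc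
      obtain ⟨M, hM⟩ := hdiff R
      have hlow : ∀ n, N + M ≤ n → eval (zL n) R / (a : L) ^ N ∉ A := fun n hn hmem => by
        obtain ⟨n', hn', hbad⟩ := hN n
        refine hbad ?_
        obtain ⟨d, rfl⟩ := Nat.exists_eq_add_of_le hn
        rw [show eval (zL n') R / (a : L) ^ N = eval (zL (N + M + d)) R / (a : L) ^ N +
          (a : L) ^ d * ((a : L) ^ M * (eval (zL n') R - eval (zL (N + M + d)) R) /
            (a : L) ^ (N + M + d)) by
              rw [pow_add, pow_add]; field_simp; ring]
        exact add_mem hmem (mul_mem (pow_mem a.2 _) (hM _ _ hn'))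
      intro N'
      obtain ⟨n₀, hn⟩ := hRS (N' + N)
      refine ⟨max n₀ (N + M), fun n h => ?_⟩
      have h1 := hlow n (by omega)
      have hR0 : eval (zL n) R ≠ 0 := fun e => h1 (by simp [e])
      have h2 := (A.mem_or_inv_mem _).resolve_left h1
      rw [inv_div] at h2
      have h3 := mul_mem (hn n (by omega)) h2
      rwa [map_mul, show eval (zL n) R * eval (zL n) S / (a : L) ^ (N' + N) *
        ((a : L) ^ N / eval (zL n) R) = eval (zL n) S / (a : L) ^ N' by
          rw [pow_add]; field_simp] at h3
  have hevm : ∀ (n : ℕ) (p : MvPolynomial τ A),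
      eval (zL n) (MvPolynomial.map A.subtype p) = (eval (z n) p : L) := fun n p => by
    rw [eval_map]; exact (eval₂_comp A.subtype (z n) p).symm
  let QL : τ → MvPolynomial τ L := fun t => MvPolynomial.map A.subtype (Q t)
  have hQI : ∀ t, QL t ∈ I := fun t N => ⟨N, fun n hn => by
    obtain ⟨r, hr⟩ := dvd_trans (pow_dvd_pow a (show N ≤ n + 1 by omega)) ((hz n).2 t)
    rw [hevm, hr]
    push_cast
    rw [mul_div_cancel_left₀ _ (pow_ne_zero _ haL)]
    exact r.2⟩
  let J : Matrix τ τ (MvPolynomial τ A) := Matrix.of fun t s => pderiv s (Q t)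
  have hdet : MvPolynomial.map A.subtype J.det ∉ I := fun h => by
    obtain ⟨n₀, hn⟩ := h 1
    refine hunit ⟨(eval (z n₀) J.det).2, ?_⟩ (hevm n₀ _ ▸ hn n₀ le_rfl)
    have hJ1 : (J.map (eval (z n₀))).map π = 1 := Matrix.ext fun t s => by
      have hmd := hmod _ (hz n₀).1 (pderiv s (Q t))
      obtain ⟨r, hr⟩ := hmd
      simp only [J, Matrix.map_apply, Matrix.of_apply, Matrix.one_apply]
      rw [eq_add_of_sub_eq hr, map_add, map_mul, ha, zero_mul, zero_add, hJ]
    have e : π (eval (z n₀) J.det) = 1 := by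
      rw [RingHom.map_det, RingHom.map_det]
      simp only [RingHom.mapMatrix_apply, hJ1, Matrix.det_one]
    show π (eval (z n₀) J.det) ≠ 0
    rw [e]; exact one_ne_zero
  -- the residue field is the base
  let K' := FractionRing (MvPolynomial τ L ⧸ I)
  let ev : MvPolynomial τ L →ₐ[L] K' :=
    (IsScalarTower.toAlgHom L (MvPolynomial τ L ⧸ I) K').comp (Ideal.Quotient.mkₐ L I)
  have hev0 : ∀ p, ev p = 0 ↔ p ∈ I := fun p => by
    show algebraMap (MvPolynomial τ L ⧸ I) K' (Ideal.Quotient.mk I p) = 0 ↔ _
    rw [map_eq_zero_iff _ (IsFractionRing.injective _ _), Ideal.Quotient.eq_zero_iff_mem]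
  let D := KaehlerDifferential.D L K'
  have hchain : ∀ p : MvPolynomial τ L, D (ev p) = ∑ s, ev (pderiv s p) • D (ev (X s)) := fun p => by
    induction p using MvPolynomial.induction_on with
    | C c =>
      rw [← algebraMap_eq, AlgHom.commutes, Derivation.map_algebraMap]
      simp [algebraMap_eq]
    | add p q hp hq' => simp only [map_add, hp, hq', add_smul, Finset.sum_add_distrib]
    | mul_X p s hp =>
      have e : ∀ i, ev (pderiv i (p * X s)) =
          ev (pderiv i p) * ev (X s) + ev p * (if i = s then 1 else 0) := fun i => by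
        rw [pderiv_mul, map_add, map_mul, map_mul, pderiv_X, Pi.single_apply]
        by_cases his : i = s
        · simp [his]
        · simp [his, Ne.symm his]
      simp only [e]
      simp only [map_mul, Derivation.leibniz, hp, Finset.smul_sum, smul_smul, add_smul,
        Finset.sum_add_distrib, mul_ite, mul_one, mul_zero, ite_smul, zero_smul, Finset.sum_ite_eq',
        Finset.mem_univ, if_true]
      rw [add_comm]
      refine congrArg₂ (· + ·) (Finset.sum_congr rfl fun i _ => ?_) rfl
      rw [mul_comm (ev (X s))]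
  let Jv : Matrix τ τ K' := Matrix.of fun t s => ev (pderiv s (QL t))
  have hJv : Jv.det = ev (MvPolynomial.map A.subtype J.det) := by
    rw [show Jv = (ev.toRingHom.comp (MvPolynomial.map A.subtype)).mapMatrix J from
      Matrix.ext fun t s => by simp [Jv, J, QL, pderiv_map], ← RingHom.map_det]
    rfl
  have hdet0 : Jv.det ≠ 0 := by rw [hJv, Ne, hev0]; exact hdet
  have hDX : ∀ s, D (ev (X s)) = 0 := fun s => by
    have h1 : ∀ t, ∑ i, Jv t i • D (ev (X i)) = 0 := fun t => by
      have := hchain (QL t)
      rw [(hev0 _).2 (hQI t), map_zero] at this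
      exact this.symm
    have h2 : Jv.det • D (ev (X s)) = ∑ t, Jv.adjugate s t • ∑ i, Jv t i • D (ev (X i)) := by
      simp only [Finset.smul_sum, smul_smul]
      rw [Finset.sum_comm]
      simp only [← Finset.sum_smul, ← Matrix.mul_apply, Matrix.adjugate_mul, Matrix.smul_apply,
        Matrix.one_apply, smul_eq_mul, mul_ite, mul_one, mul_zero, ite_smul, zero_smul,
        Finset.sum_ite_eq, Finset.mem_univ, if_true]
    simp only [h1, smul_zero, Finset.sum_const_zero] at h2
    exact (smul_eq_zero.1 h2).resolve_left hdet0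
  have hD : ∀ q : K', D q = 0 := fun q => by
    obtain ⟨u, v, -, rfl⟩ := IsFractionRing.div_surjective (A := MvPolynomial τ L ⧸ I) q
    obtain ⟨u, rfl⟩ := Ideal.Quotient.mk_surjective u
    obtain ⟨v, rfl⟩ := Ideal.Quotient.mk_surjective v
    show D (ev u / ev v) = 0
    rw [Derivation.leibniz_div, hchain u, hchain v]
    simp [hDX]
  haveI : Subsingleton (Ω[K'⁄L]) := by
    refine (Submodule.subsingleton_iff K').1 (subsingleton_iff_bot_eq_top.1 ?_)
    rw [← KaehlerDifferential.span_range_derivation L K', eq_comm, Submodule.span_eq_bot]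
    rintro _ ⟨q, rfl⟩
    exact hD q
  haveI : Algebra.FormallyUnramified L K' := ⟨inferInstance⟩
  haveI : Algebra.EssFiniteType (MvPolynomial τ L ⧸ I) K' :=
    Algebra.EssFiniteType.of_isLocalization K' (nonZeroDivisors _)
  haveI : Algebra.EssFiniteType L K' := Algebra.EssFiniteType.comp L (MvPolynomial τ L ⧸ I) K'
  haveI : Algebra.IsSeparable L K' := Algebra.FormallyUnramified.isSeparable L K'
  choose c hc using fun s => (IsAlgClosed.algebraMap_bijective_of_isIntegral (k := L) (K := K')).2
    (ev (X s))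
  have hXc : ∀ s, X s - MvPolynomial.C (c s) ∈ I := fun s => by
    rw [← hev0, map_sub, ← algebraMap_eq, AlgHom.commutes, hc, sub_self]
  have hcA : ∀ s, ∃ r : A, (r : L) = c s ∧ π r = 0 := fun s => by
    obtain ⟨n₀, hn⟩ := hXc s 1
    have h1 := hn n₀ le_rfl
    rw [map_sub, eval_X, eval_C, pow_one] at h1
    obtain ⟨r, hr⟩ := exists_div_eq ha0 h1
    obtain ⟨w, hw⟩ := (hz n₀).1 s
    refine ⟨z n₀ s - a * r, ?_, ?_⟩
    · push_cast
      show zL n₀ s - _ = _
      linear_combination hr
    · rw [map_sub, map_mul, ha, zero_mul, hw, map_mul, ha, zero_mul, sub_zero]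
  choose r hr hr0 using hcA
  refine ⟨r, hr0, fun t => Subtype.ext ?_⟩
  have h1 : ev (QL t) = algebraMap L K' (eval c (QL t)) := by
    have e : ev = (Algebra.ofId L K').comp (aeval c) := algHom_ext fun s => by
      simp [hc, Algebra.ofId_apply]
    rw [e, AlgHom.comp_apply, Algebra.ofId_apply, aeval_eq_eval]
  rw [(hev0 _).2 (hQI t), eq_comm, map_eq_zero_iff _ (algebraMap L K').injective,
    show c = fun s => (r s : L) from funext fun s => (hr s).symm] at h1
  show ((eval r (Q t) : A) : L) = 0
  rw [← h1, eval_map]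
  exact eval₂_comp A.subtype r (Q t)

/-- A system with surjective linearisation at a zero of the reduction has an integral zero
with that reduction. -/
theorem hensel [IsAlgClosed L] (hπ : Function.Surjective π) (hA : RankOne π) {σ τ : Type*}
    [Fintype σ] [Fintype τ] (P : τ → MvPolynomial σ A) (c₀ : σ → A)
    (h0 : ∀ t, π (eval c₀ (P t)) = 0)
    (hsurj : ∀ b : τ → k, ∃ δ : σ → k, ∀ t,
      ∑ i, δ i * eval₂ π (fun j => π (c₀ j)) (pderiv i (P t)) = b t) :
    ∃ c : σ → A, (∀ i, π (c i) = π (c₀ i)) ∧ ∀ t, eval c (P t) = 0 := by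
  classical
  choose δ hδ using fun s : τ => hsurj (Pi.single s 1)
  choose R hR using fun (s : τ) i => hπ (δ s i)
  let g : σ → MvPolynomial τ A := fun i => C (c₀ i) + ∑ s, C (R s i) * X s
  have hg : ∀ (w : τ → A) (p : MvPolynomial σ A),
      eval w (aeval g p) = eval (fun i => c₀ i + ∑ s, R s i * w s) p := fun w p => by
    induction p using MvPolynomial.induction_on with
    | C c => simp
    | add p q hp hq => simp only [map_add, hp, hq]
    | mul_X p i hp => simp only [map_mul, aeval_X, eval_X, hp, g, map_add, map_sum, eval_C]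
  have hg0 : ∀ p : MvPolynomial σ A, eval 0 (aeval g p) = eval c₀ p := fun p => by
    rw [hg]; simp
  obtain ⟨w, hw, hwQ⟩ := hensel_square hπ hA (fun t => aeval g (P t))
    (fun t => by rw [hg0]; exact h0 t) fun t s => by
      rw [pderiv_aeval, map_sum, map_sum]
      have e : ∀ i, pderiv s (g i) = C (R s i) := fun i => by
        simp [g, pderiv_X, Pi.single_apply]
      simp only [e, map_mul, eval_C, hg0, hR]
      refine (Finset.sum_congr rfl fun i _ => ?_).trans ((hδ s t).trans (Pi.single_apply s 1 t))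
      rw [mul_comm]
      exact congrArg (δ s i * ·) (eval₂_comp π c₀ _)
  refine ⟨fun i => c₀ i + ∑ s, R s i * w s, fun i => ?_, fun t => by rw [← hg, hwQ]⟩
  simp [hw]

end FLTAgent.Jac27.Lift
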