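import Fermat.Agent.Jac27.Lift.Setup
import Fermat.Agent.Specialization.Descent

/-!
# Specialisation of the points over a general value
-/

set_option autoImplicit false
set_option linter.style.haveILetI false
set_option linter.unusedSectionVars false

noncomputable section

namespace FLTAgent.Jac27.Lift

open AlgebraicCurve FLTAgent.Curves FLTAgent.Specialization Polynomial IntermediateField

section Gen

variable {K E : Type*} [Field K] [Field E] [Algebra K E]

theorem eq_of_ordGE_sub {v : Place K E} {y : E} {a b : K}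
    (ha : OrdGE v 1 (y - algebraMap K E a)) (hb : OrdGE v 1 (y - algebraMap K E b)) : a = b := by
  have h := hb.sub ha
  rw [sub_sub_sub_cancel_left, ← map_sub] at h
  rcases h with h | h
  · exact sub_eq_zero.1 ((map_eq_zero_iff _ (algebraMap K E).injective).1 h)
  · rw [ord_algebraMap] at h; omega

theorem eq_of_ord_sub_pos {v : Place K E} {y : E} {a b : K}
    (ha : 0 < v.ord (y - algebraMap K E a)) (hb : 0 < v.ord (y - algebraMap K E b)) : a = b :=
  eq_of_ordGE_sub (v := v) (y := y) (ordGE_of_le (c := 1) (by omega : (1 : ℤ) ≤ _))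
    (ordGE_of_le (c := 1) (by omega : (1 : ℤ) ≤ _))

variable [IsAlgClosed K] [IsFunctionField K E]

theorem poleDiv_sub_const {x : E} (hx : Transcendental K x) (a : K) :
    poleDiv K (x - algebraMap K E a) = poleDiv K x := by
  refine Finsupp.ext fun v => ?_
  rw [poleDiv_apply, poleDiv_apply]
  have hne := ne_zero_of_transcendental (transcendental_sub hx a)
  by_cases h : v.ord x < 0
  · have h1 := (ord_add_eq_left (v := v) (ne_zero_of_transcendental hx)
      (g := -algebraMap K E a) (Or.inr (by rwa [← map_neg, ord_algebraMap]))).1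
    rw [← sub_eq_add_neg] at h1
    rw [h1]
  · have h1 := ((ordGE_of_le (c := 0) (not_lt.1 h)).sub (ordGE_algebraMap v a)).le_ord hne
    omega

theorem divOf_sub_const {x : E} (hx : Transcendental K x) (a : K) :
    divOf K (x - algebraMap K E a) + poleDiv K x = poleDiv K (x - algebraMap K E a)⁻¹ := by
  rw [divOf_eq_sub, poleDiv_sub_const hx, sub_add_cancel]

theorem single_le_of_apply_pos {D : Divisor K E} (hD : 0 ≤ D) {v : Place K E} (hv : 0 < D v) :
    Finsupp.single v 1 ≤ D := fun w => by
  classical
  rw [Finsupp.single_apply]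
  split_ifs with h
  · subst h; omega
  · exact hD w

end Gen

variable {L k : Type*} [Field L] [Field k] {A : ValuationSubring L} {π : A →+* k}
variable {F Fb : Type*} [Field F] [Field Fb] [Algebra L F] [Algebra k Fb]
variable [IsAlgClosed L] [IsFunctionField L F] [IsAlgClosed k] [IsFunctionField k Fb]
variable {M : Model π F Fb} (hM : M.Smooth)

/-- The place of an effective divisor specialises into its specialisation. -/
theorem one_le_divMap_apply {D : Divisor L F} (hD : 0 ≤ D) {P : Place L F} (hP : 0 < D P) :
    1 ≤ Model.divMap hM D (Model.place hM P) := by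
  have h := Model.divMap_mono hM (single_le_of_apply_pos hD hP) (Model.place hM P)
  rwa [Model.divMap_single, Finsupp.single_eq_same] at h

theorem ord_place_pos {P : Place L F} {a : A} (h : 0 < P.ord (M.x - algebraMap L F a)) :
    0 < (Model.place hM P).ord (M.xb - algebraMap k Fb (π a)) := by
  have hres : M.Res (M.x - algebraMap L F a) (M.xb - algebraMap k Fb (π a)) :=
    M.x_res.sub (Reduction.res_algebraMap M.toReduction a)
  have h0 : M.xb - algebraMap k Fb (π a) ≠ 0 :=
    ne_zero_of_transcendental (transcendental_sub M.transcendental _)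
  have h1 := Model.divMap_divOf hM hres h0
  rw [eq_sub_of_add_eq (divOf_sub_const M.transcendental (π a)),
    eq_sub_of_add_eq (divOf_sub_const M.transcendental_x (a : L)), map_sub,
    Model.divMap_poleDiv hM, sub_left_inj] at h1
  have h2 := one_le_divMap_apply hM (poleDiv_nonneg ((M.x - algebraMap L F a)⁻¹)) (P := P)
    (by rw [poleDiv_apply, P.ord_inv]; omega)
  rw [h1, poleDiv_apply, Place.ord_inv] at h2
  omega

theorem ord_place_neg {P : Place L F} {a : L} (ha : a ∉ A)
    (h : 0 < P.ord (M.x - algebraMap L F a)) : (Model.place hM P).ord M.xb < 0 := by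
  have hinv : a⁻¹ ∈ A := (A.mem_or_inv_mem a).resolve_left ha
  have ha0 : a ≠ 0 := fun h0 => ha (h0 ▸ zero_mem A)
  have hπ0 : π ⟨a⁻¹, hinv⟩ = 0 :=
    Reduction.map_eq_zero_of_inv_notMem M.surj (a := ⟨a⁻¹, hinv⟩) (by rwa [inv_inv])
  have hne := ne_zero_of_transcendental (transcendental_sub M.transcendental_x a)
  have hres : M.Res (algebraMap L F a⁻¹ * (M.x - algebraMap L F a)) (-1) := by
    have h1 := ((Reduction.res_algebraMap M.toReduction ⟨a⁻¹, hinv⟩).mul M.x_res).sub M.res_one
    rw [hπ0, map_zero, zero_mul, zero_sub] at h1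
    rwa [mul_sub, ← map_mul, inv_mul_cancel₀ ha0, map_one]
  have h1 := Model.divMap_divOf hM hres (neg_ne_zero.2 one_ne_zero)
  rw [divOf_mul ((_root_.map_ne_zero _).2 (inv_ne_zero ha0)) hne, divOf_algebraMap, zero_add,
    eq_sub_of_add_eq (divOf_sub_const M.transcendental_x a), map_sub,
    Model.divMap_poleDiv hM, show divOf k (-1 : Fb) = 0 by
      rw [show (-1 : Fb) = algebraMap k Fb (-1) by simp, divOf_algebraMap], sub_eq_zero] at h1
  have h2 := one_le_divMap_apply hM (poleDiv_nonneg ((M.x - algebraMap L F a)⁻¹)) (P := P)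
    (by rw [poleDiv_apply, P.ord_inv]; omega)
  rw [h1, poleDiv_apply] at h2
  omega

variable (I : IntPlane M)

/-- Over a good residual value the second coordinate specialises. -/
theorem ordGE_place_y {Q : Place L F} {ξ η : A} (hg : I.planeK.Good (π ξ))
    (hξ : 0 < Q.ord (M.x - algebraMap L F ξ)) (hη : OrdGE Q 1 (I.y - algebraMap L F η)) :
    OrdGE (Model.place hM Q) 1 (I.yb - algebraMap k Fb (π η)) := by
  set g := I.y - algebraMap L F η with hgdef
  set gb := I.yb - algebraMap k Fb (π η)
  by_cases hgb : gb = 0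
  · exact Or.inl hgb
  set Qb := Model.place hM Q with hQb
  have hres : M.Res g gb := I.y_res.sub (Reduction.res_algebraMap M.toReduction η)
  have hg0 : g ≠ 0 := hres.ne_zero hgb
  have hξb := ord_place_pos hM hξ
  have hpole : Model.divMap hM (poleDiv L g) Qb = 0 := by
    by_contra hne
    classical
    rw [Model.divMap_apply] at hne
    obtain ⟨P, hP, hPQ⟩ := Finset.mem_image.1
      (Finsupp.mapDomain_support (Finsupp.mem_support_iff.2 hne))
    rw [Finsupp.mem_support_iff, poleDiv_apply] at hP
    have hPg : P.ord g < 0 := by omega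
    -- the value of the coordinate at the pole is a lift of the residual value
    have hQx : 0 ≤ (Model.place hM P).ord M.xb := hPQ ▸ ord_nonneg_of_sub hξb
    have hPx : 0 ≤ P.ord M.x := by
      by_contra hcon
      have h1 := one_le_divMap_apply hM (poleDiv_nonneg M.x) (P := P)
        (by rw [poleDiv_apply]; omega)
      rw [Model.divMap_poleDiv hM, poleDiv_apply] at h1
      omega
    have ha := ord_sub_placeValue_pos M.transcendental_x hPx
    set a := placeValue M.x P
    have haA : a ∈ A := by
      by_contra hcon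
      have := ord_place_neg hM hcon ha
      omega
    have hab := ord_place_pos hM (a := ⟨a, haA⟩) ha
    rw [hPQ] at hab
    have hgood : I.planeL.Good ((⟨a, haA⟩ : A) : L) :=
      I.good_lift (eq_of_ord_sub_pos hab hξb ▸ hg)
    have h2 := (I.planeL.ordGE_y hgood ha).sub (ordGE_algebraMap P (η : L))
    exact absurd (h2.le_ord hg0) (not_le.2 hPg)
  have h1 := congrArg (fun D : Divisor k Fb => D Qb) (Model.divMap_divOf hM hres hgb)
  simp only [divOf_eq_sub g, map_sub, Finsupp.sub_apply, hpole, sub_zero, divOf_apply] at h1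
  have h2 := one_le_divMap_apply hM (poleDiv_nonneg g⁻¹) (P := Q)
    (by rw [poleDiv_apply, Q.ord_inv]; have := hη.le_ord hg0; omega)
  rw [h1] at h2
  exact ordGE_of_le h2

/-- The points over a lift specialise to the points over the residual value. -/
theorem exists_place_lift {ξ η : A} (hg : I.planeK.Good (π ξ))
    (hη : (I.Φ.map (evalRingHom ξ)).eval η = 0) {Qb : Place k Fb}
    (hQb : 0 < Qb.ord (M.xb - algebraMap k Fb (π ξ)))
    (hQy : OrdGE Qb 1 (I.yb - algebraMap k Fb (π η))) :
    ∃ Q : Place L F, Q.ord (M.x - algebraMap L F ξ) = 1 ∧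
      OrdGE Q 1 (I.y - algebraMap L F η) ∧ Model.place hM Q = Qb := by
  have hgL := I.good_lift hg
  have hmem : (η : L) ∈ I.planeL.fibRoots (ξ : L) := by
    rw [I.planeL.mem_fibRoots hgL,
      show I.planeL.Φ.map (evalRingHom (ξ : L)) = (I.Φ.map (evalRingHom ξ)).map A.subtype by
        simp only [IntPlane.planeL, Polynomial.map_map]
        refine congrArg (fun φ => Polynomial.map φ I.Φ) (Polynomial.ringHom_ext (fun a => ?_) ?_)
          <;> simp,
      show (η : L) = A.subtype η from rfl, eval_map_apply, hη, map_zero]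
  obtain ⟨Q, h1, h2⟩ := I.planeL.exists_place hgL hmem
  have h1' : Q.ord (M.x - algebraMap L F ξ) = 1 := h1
  have h3 := ord_place_pos hM (a := ξ) (P := Q) (by omega)
  have h4 := ordGE_place_y hM I hg (by omega) h2
  obtain ⟨c, hc, hcy⟩ := I.planeK.exists_root hg hQb
  exact ⟨Q, h1', h2, I.planeK.place_eq hg h3 hQb h4 hQy (eq_of_ordGE_sub hcy hQy ▸ hc)⟩

/-- Specialisation takes principal divisors to principal divisors. -/
theorem isPrincipal_divMap {D : Divisor L F} (hD : Divisor.IsPrincipal D) :
    Divisor.IsPrincipal (Model.divMap hM D) := by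
  obtain ⟨f, hf, rfl⟩ := isPrincipal_iff.1 hD
  obtain ⟨c, g, hg, hcg⟩ := M.scaled f hf
  refine isPrincipal_iff.2 ⟨g, hg, ?_⟩
  have hc : c ≠ 0 := by rintro rfl; rw [zero_smul] at hcg; exact hg (hcg.unique M.res_zero)
  rw [← Model.divMap_divOf hM hcg hg, Algebra.smul_def,
    divOf_mul ((_root_.map_ne_zero _).2 hc) hf, divOf_algebraMap, zero_add]

end FLTAgent.Jac27.Lift
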