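import Fermat.Agent.Specialization.Riemann
import Mathlib.Algebra.Polynomial.Identities

/-!
# Places of a plane model over a general value of the coordinate, and truncated expansions

Over a value where the fibre polynomial is separable of full degree the places are the roots, they
are unramified, and the order of a polynomial in the coordinates is read off from its value at a
truncated root of the relation.
-/

set_option autoImplicit false
set_option linter.style.haveILetI false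
set_option linter.unusedSectionVars false

noncomputable section

namespace FLTAgent.Jac27.Lift

open AlgebraicCurve FLTAgent.Curves FLTAgent.Specialization Polynomial IntermediateField

/-- Evaluation of a polynomial in two variables. -/
def ev2 {R S : Type*} [CommRing R] [CommRing S] (φ : R →+* S) (a b : S) : R[X][X] →+* S :=
  eval₂RingHom (eval₂RingHom φ a) b

theorem ev2_apply {R S : Type*} [CommRing R] [CommRing S] (φ : R →+* S) (a b : S) (N : R[X][X]) :
    ev2 φ a b N = eval₂ (eval₂RingHom φ a) b N := rfl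

theorem map_ev2 {R S T : Type*} [CommRing R] [CommRing S] [CommRing T] (φ : R →+* S) (ψ : S →+* T)
    (a b : S) (N : R[X][X]) : ψ (ev2 φ a b N) = ev2 (ψ.comp φ) (ψ a) (ψ b) N := by
  rw [ev2_apply, ev2_apply, hom_eval₂]
  congr 1
  exact Polynomial.ringHom_ext (fun r => by simp) (by simp)

theorem ev2_map {R S T : Type*} [CommRing R] [CommRing S] [CommRing T] (φ : S →+* T) (ψ : R →+* S)
    (a b : T) (N : R[X][X]) :
    ev2 φ a b (N.map (mapRingHom ψ)) = ev2 (φ.comp ψ) a b N := by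
  rw [ev2_apply, ev2_apply, eval₂_map]
  congr 1
  exact Polynomial.ringHom_ext (fun r => by simp) (by simp)

/-- The value of a polynomial at an expansion. -/
def jet {R : Type*} [CommRing R] (ξ : R) (η : R[X]) : R[X][X] →+* R[X] := ev2 C (C ξ + X) η

theorem jet_eval_zero {R : Type*} [CommRing R] (ξ : R) (η : R[X]) (N : R[X][X]) :
    (jet ξ η N).eval 0 = (N.map (evalRingHom ξ)).eval (η.eval 0) := by
  have h := map_ev2 (C : R →+* R[X]) (evalRingHom 0) (C ξ + X) η N
  rw [coe_evalRingHom] at h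
  refine h.trans ?_
  rw [ev2_apply, eval_map]
  congr 1
  exact Polynomial.ringHom_ext (fun r => by simp) (by simp)

variable {K F : Type*} [Field K] [Field F] [Algebra K F]

/-- A plane model of a function field. -/
structure PlaneData (K F : Type*) [Field K] [Field F] [Algebra K F] where
  x : F
  y : F
  Φ : K[X][X]
  n : ℕ
  tr : Transcendental K x
  eqn : ev2 (algebraMap K F) x y Φ = 0
  deg : Φ.natDegree ≤ n
  finrank_eq : Module.finrank K⟮x⟯ F = n
  span : ∀ f : F, ∃ D : K[X], D ≠ 0 ∧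
    ∃ N : K[X][X], aeval x D * f = ev2 (algebraMap K F) x y N

namespace PlaneData

variable (P : PlaneData K F)

/-- The value of a polynomial in the coordinates. -/
def val : K[X][X] →+* F := ev2 (algebraMap K F) P.x P.y

/-- The fibre polynomial is separable of full degree. -/
structure Good (ξ : K) : Prop where
  lead : (P.Φ.coeff P.n).eval ξ ≠ 0
  sep : ∀ η : K, (P.Φ.map (evalRingHom ξ)).eval η = 0 →
    (P.Φ.derivative.map (evalRingHom ξ)).eval η ≠ 0

variable [IsAlgClosed K] [IsFunctionField K F] {ξ : K} (hg : P.Good ξ)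

theorem natDegree_fib (hg : P.Good ξ) : (P.Φ.map (evalRingHom ξ)).natDegree = P.n :=
  le_antisymm (natDegree_map_le.trans P.deg)
    (le_natDegree_of_ne_zero (by rw [coeff_map]; exact hg.lead))

open Classical in
/-- The roots over a general value. -/
def fibRoots (ξ : K) : Finset K := (P.Φ.map (evalRingHom ξ)).roots.toFinset

theorem fib_ne_zero (hg : P.Good ξ) : P.Φ.map (evalRingHom ξ) ≠ 0 := fun h =>
  hg.lead (by simpa [coeff_map] using congrArg (fun p => coeff p P.n) h)

theorem mem_fibRoots (hg : P.Good ξ) {η : K} :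
    η ∈ P.fibRoots ξ ↔ (P.Φ.map (evalRingHom ξ)).eval η = 0 := by
  classical
  rw [fibRoots, Multiset.mem_toFinset, mem_roots (P.fib_ne_zero hg), IsRoot.def]

theorem card_fibRoots (hg : P.Good ξ) : (P.fibRoots ξ).card = P.n := by
  classical
  set p := P.Φ.map (evalRingHom ξ) with hp
  have hsep : p.Separable := by
    refine isCoprime_iff_aeval_ne_zero_of_isAlgClosed _ K _ _ |>.2 fun a => ?_
    simp only [coe_aeval_eq_eval]
    by_cases h : p.eval a = 0
    · right
      rw [hp, derivative_map]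
      exact hg.sep a h
    · exact Or.inl h
  rw [fibRoots, ← hp, Multiset.card_toFinset, Multiset.dedup_eq_self.2 (nodup_roots hsep),
    IsAlgClosed.card_roots_eq_natDegree, hp, P.natDegree_fib hg]

theorem exists_jet (hg : P.Good ξ) {η₀ : K} (h0 : (P.Φ.map (evalRingHom ξ)).eval η₀ = 0) (m : ℕ) :
    ∃ η : K[X], η.eval 0 = η₀ ∧ (X : K[X]) ^ m ∣ jet ξ η P.Φ := by
  induction m with
  | zero => exact ⟨C η₀, eval_C, by simp⟩
  | succ m ih =>
    rcases Nat.eq_zero_or_pos m with rfl | hm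
    · refine ⟨C η₀, eval_C, ?_⟩
      rw [zero_add, pow_one, X_dvd_iff, coeff_zero_eq_eval_zero, jet_eval_zero, eval_C, h0]
    obtain ⟨η, hη0, q, hq⟩ := ih
    set d := (jet ξ η P.Φ.derivative).eval 0 with hd
    have hd0 : d ≠ 0 := by
      rw [hd, jet_eval_zero, hη0]
      exact hg.sep _ h0
    set b : K := -q.eval 0 / d
    obtain ⟨z, hz⟩ := binomExpansion (P.Φ.map (eval₂RingHom C (C ξ + X))) η (C b * X ^ m)
    have e : ∀ (N : K[X][X]) (u : K[X]), (N.map (eval₂RingHom C (C ξ + X))).eval u = jet ξ u N :=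
      fun N u => eval_map _ _
    rw [derivative_map, e, e, e] at hz
    refine ⟨η + C b * X ^ m, by simp [hη0, zero_pow (by omega : m ≠ 0)], ?_⟩
    rw [hz, hq, show (X : K[X]) ^ m * q + jet ξ η P.Φ.derivative * (C b * X ^ m) +
        z * (C b * X ^ m) ^ 2 =
      X ^ m * (q + jet ξ η P.Φ.derivative * C b + z * C b * C b * X ^ m) by ring, pow_succ]
    refine mul_dvd_mul_left _ (X_dvd_iff.2 ?_)
    rw [coeff_zero_eq_eval_zero]
    simp only [eval_add, eval_mul, eval_C, eval_pow, eval_X, zero_pow (by omega : m ≠ 0), mul_zero,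
      add_zero, ← hd, b]
    field_simp
    ring

variable {v : Place K F} (hv : 0 < v.ord (P.x - algebraMap K F ξ))

theorem aeval_x (p : K[X]) :
    aeval P.x p = aeval (P.x - algebraMap K F ξ) (p.comp (X + C ξ)) := by
  rw [aeval_comp]
  simp

theorem ord_aeval_x (hv : 0 < v.ord (P.x - algebraMap K F ξ)) {p : K[X]} (hp : p.eval ξ ≠ 0) :
    v.ord (aeval P.x p) = 0 := by
  rw [P.aeval_x (ξ := ξ)]
  refine (ord_aeval_eq_zero hv ?_).1
  rw [coeff_zero_eq_eval_zero, eval_comp]
  simpa using hp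

theorem ord_x_nonneg (hv : 0 < v.ord (P.x - algebraMap K F ξ)) : 0 ≤ v.ord P.x :=
  ord_nonneg_of_sub hv

theorem ordGE_y (hg : P.Good ξ) (hv : 0 < v.ord (P.x - algebraMap K F ξ)) : OrdGE v 0 P.y := by
  by_contra hcon
  have hy0 : P.y ≠ 0 := fun h => hcon (Or.inl h)
  have hneg : v.ord P.y < 0 := not_le.1 fun h => hcon (ordGE_of_le h)
  have h := P.eqn
  rw [ev2_apply, eval₂_eq_sum_range' _ (Nat.lt_succ_of_le P.deg), Finset.sum_range_succ,
    coe_eval₂RingHom, add_eq_zero_iff_eq_neg] at h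
  have h1 : OrdGE v (((P.n : ℤ) - 1) * v.ord P.y) (∑ i ∈ Finset.range P.n,
      eval₂ (algebraMap K F) P.x (P.Φ.coeff i) * P.y ^ i) := by
    refine OrdGE.sum fun i hi => ?_
    have hin : (i : ℤ) + 1 ≤ P.n := by exact_mod_cast Finset.mem_range.1 hi
    refine ((ordGE_aeval (P.ord_x_nonneg hv) _).mul (ordGE_of_le (ord_pow v P.y i).ge)).mono ?_
    nlinarith
  rw [h] at h1
  have h2 := h1.neg
  rw [neg_neg] at h2
  have hl : eval₂ (algebraMap K F) P.x (P.Φ.coeff P.n) ≠ 0 := fun h0 =>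
    hg.lead (by
      by_contra hne
      have := aeval_ne_zero P.tr (p := P.Φ.coeff P.n) (fun e => hne (by simp [e]))
      exact this h0)
  have h3 := h2.le_ord (mul_ne_zero hl (pow_ne_zero _ hy0))
  rw [v.ord_mul hl (pow_ne_zero _ hy0), ord_pow,
    show v.ord (eval₂ (algebraMap K F) P.x (P.Φ.coeff P.n)) = 0 from P.ord_aeval_x hv hg.lead,
    zero_add] at h3
  nlinarith

/-- The first order expansion at a place. -/
theorem exists_taylor_place (hv : 0 < v.ord (P.x - algebraMap K F ξ)) {u h : F} (hu : OrdGE v 0 u)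
    (hh : OrdGE v 0 h) (N : K[X][X]) : ∃ z : F, OrdGE v 0 z ∧
      ev2 (algebraMap K F) P.x (u + h) N = ev2 (algebraMap K F) P.x u N +
        ev2 (algebraMap K F) P.x u N.derivative * h + z * h ^ 2 := by
  let O := v.toValuationSubring
  let ψ : K[X] →+* O := (eval₂RingHom (algebraMap K F) P.x).codRestrict O fun p =>
    ordGE_zero_iff_mem.1 (ordGE_aeval (P.ord_x_nonneg hv) p)
  obtain ⟨z, hz⟩ := binomExpansion (N.map ψ) ⟨u, ordGE_zero_iff_mem.1 hu⟩
    ⟨h, ordGE_zero_iff_mem.1 hh⟩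
  have e : ∀ (M : K[X][X]) (w : O),
      (((M.map ψ).eval w : O) : F) = ev2 (algebraMap K F) P.x w M := fun M w => by
    rw [eval_map, ev2_apply]
    exact hom_eval₂ M ψ O.subtype w
  refine ⟨z, ordGE_zero_iff_mem.2 z.2, ?_⟩
  have h1 := congrArg Subtype.val hz
  rw [derivative_map] at h1
  push_cast at h1
  rw [e, e, e] at h1
  simpa using h1

theorem ev2_jet (η : K[X]) (N : K[X][X]) :
    ev2 (algebraMap K F) P.x (aeval (P.x - algebraMap K F ξ) η) N =
      aeval (P.x - algebraMap K F ξ) (jet ξ η N) := by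
  symm
  refine (map_ev2 (C : K →+* K[X]) (aeval (P.x - algebraMap K F ξ)).toRingHom (C ξ + X) η N).trans ?_
  have h1 : (aeval (P.x - algebraMap K F ξ)).toRingHom.comp (C : K →+* K[X]) = algebraMap K F :=
    RingHom.ext fun r => by simp
  rw [h1]
  simp

theorem ordGE_sub_eval_zero (hv : 0 < v.ord (P.x - algebraMap K F ξ)) (p : K[X]) :
    OrdGE v 1 (aeval (P.x - algebraMap K F ξ) p - algebraMap K F (p.eval 0)) := by
  rw [← coeff_zero_eq_eval_zero]
  exact (ordGE_aeval_sub hv p).mono (by omega)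

/-- A place has a root of the fibre polynomial as the value of the second coordinate. -/
theorem exists_root (hg : P.Good ξ) (hv : 0 < v.ord (P.x - algebraMap K F ξ)) :
    ∃ η₀ ∈ P.fibRoots ξ, OrdGE v 1 (P.y - algebraMap K F η₀) := by
  obtain ⟨c, hc⟩ := exists_residue v (P.ordGE_y hg hv)
  refine ⟨c, (P.mem_fibRoots hg).2 ?_, hc⟩
  obtain ⟨z, hz, h⟩ := P.exists_taylor_place hv (ordGE_algebraMap v c)
    (hc.mono (by norm_num : (0 : ℤ) ≤ 1)) P.Φ
  rw [add_sub_cancel, P.eqn] at h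
  have e : ev2 (algebraMap K F) P.x (algebraMap K F c) P.Φ =
      aeval (P.x - algebraMap K F ξ) (jet ξ (C c) P.Φ) := by
    rw [← ev2_jet, aeval_C]
  have h1 : OrdGE v 1 (ev2 (algebraMap K F) P.x (algebraMap K F c) P.Φ) := by
    have hd : OrdGE v 0 (ev2 (algebraMap K F) P.x (algebraMap K F c) P.Φ.derivative) := by
      rw [← aeval_C (R := K) (x := P.x - algebraMap K F ξ), ev2_jet]
      exact ordGE_aeval hv.le _
    rw [show ev2 (algebraMap K F) P.x (algebraMap K F c) P.Φ =
      -(ev2 (algebraMap K F) P.x (algebraMap K F c) P.Φ.derivative * (P.y - algebraMap K F c) +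
        z * (P.y - algebraMap K F c) ^ 2) by linear_combination -h]
    refine OrdGE.neg (((hd.mul hc).mono (by norm_num)).add ((hz.mul (hc.pow 2)).mono (by norm_num)))
  have h2 := (h1.sub (e ▸ P.ordGE_sub_eval_zero hv (jet ξ (C c) P.Φ)))
  rw [e, sub_sub_cancel, jet_eval_zero, eval_C] at h2
  rcases h2 with h2 | h2
  · exact (map_eq_zero_iff _ (algebraMap K F).injective).1 h2
  · rw [ord_algebraMap] at h2
    omega

/-- Congruence of a truncated root with the second coordinate. -/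
theorem ordGE_sub_jet (hg : P.Good ξ) (hv : 0 < v.ord (P.x - algebraMap K F ξ)) {η₀ : K}
    (hη₀ : OrdGE v 1 (P.y - algebraMap K F η₀)) {η : K[X]} {m : ℕ} (h0 : η.eval 0 = η₀)
    (hη : (X : K[X]) ^ m ∣ jet ξ η P.Φ) :
    OrdGE v ((m : ℤ) * v.ord (P.x - algebraMap K F ξ))
      (P.y - aeval (P.x - algebraMap K F ξ) η) := by
  set t := P.x - algebraMap K F ξ
  set h := P.y - aeval t η with hh
  have h1 : OrdGE v 1 h := by
    have := hη₀.sub (P.ordGE_sub_eval_zero hv η)
    rw [h0] at this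
    rwa [sub_sub_sub_cancel_right] at this
  obtain ⟨z, hz, he⟩ := P.exists_taylor_place hv (ordGE_aeval hv.le η)
    (h1.mono (by norm_num : (0 : ℤ) ≤ 1)) P.Φ
  rw [hh, add_sub_cancel, P.eqn, P.ev2_jet, P.ev2_jet, ← hh] at he
  set w := aeval t (jet ξ η P.Φ.derivative) + z * h
  obtain ⟨c, hc⟩ : ∃ c : K, c ≠ 0 ∧ OrdGE v 1 (w - algebraMap K F c) := by
    refine ⟨(jet ξ η P.Φ.derivative).eval 0, ?_, ?_⟩
    · rw [jet_eval_zero, h0]
      refine hg.sep _ ((P.mem_fibRoots hg).1 ?_)
      obtain ⟨η₁, hη₁, h2⟩ := P.exists_root hg hv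
      have h3 := h2.sub hη₀
      rw [sub_sub_sub_cancel_left, ← map_sub] at h3
      rcases h3 with h3 | h3
      · rw [sub_eq_zero.1 ((map_eq_zero_iff _ (algebraMap K F).injective).1 h3)]; exact hη₁
      · rw [ord_algebraMap] at h3; omega
    · show OrdGE v 1 (aeval t (jet ξ η P.Φ.derivative) + z * h - _)
      rw [add_sub_right_comm]
      exact (P.ordGE_sub_eval_zero hv _).add ((hz.mul h1).mono (by norm_num))
  have hw0 : w ≠ 0 ∧ v.ord w = 0 := by
    have hne : algebraMap K F c ≠ 0 := (_root_.map_ne_zero _).2 hc.1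
    have h2 : w = algebraMap K F c + (w - algebraMap K F c) := by ring
    rcases hc.2 with h3 | h3
    · rw [sub_eq_zero.1 h3]
      exact ⟨hne, ord_algebraMap v c⟩
    · have h4 := ord_add_eq_left (v := v) hne (g := w - algebraMap K F c)
        (Or.inr (by rw [ord_algebraMap]; omega))
      rw [← h2, ord_algebraMap] at h4
      exact ⟨h4.2, h4.1⟩
  obtain ⟨q, hq⟩ := hη
  have h2 : OrdGE v ((m : ℤ) * v.ord t) (h * w) := by
    rw [show h * w = -(aeval t (jet ξ η P.Φ)) by linear_combination -he]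
    refine OrdGE.neg ?_
    rw [hq, map_mul, map_pow, aeval_X]
    exact (((ordGE_ord v t).pow m).mul (ordGE_aeval hv.le q)).mono (by simp)
  have h3 := h2.mul (ordGE_of_le (v.ord_inv w).ge)
  rwa [hw0.2, neg_zero, add_zero, mul_assoc, mul_inv_cancel₀ hw0.1, mul_one] at h3

theorem ordGE_val_sub (hg : P.Good ξ) (hv : 0 < v.ord (P.x - algebraMap K F ξ)) {η₀ : K}
    (hη₀ : OrdGE v 1 (P.y - algebraMap K F η₀)) {η : K[X]} {m : ℕ} (h0 : η.eval 0 = η₀)
    (hη : (X : K[X]) ^ m ∣ jet ξ η P.Φ) (N : K[X][X]) :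
    OrdGE v ((m : ℤ) * v.ord (P.x - algebraMap K F ξ))
      (P.val N - aeval (P.x - algebraMap K F ξ) (jet ξ η N)) := by
  have h1 := P.ordGE_sub_jet hg hv hη₀ h0 hη
  set t := P.x - algebraMap K F ξ
  have hnn : 0 ≤ (m : ℤ) * v.ord t := mul_nonneg (Int.natCast_nonneg m) hv.le
  obtain ⟨z, hz, he⟩ := P.exists_taylor_place hv (ordGE_aeval hv.le η) (h1.mono hnn) N
  rw [add_sub_cancel, P.ev2_jet] at he
  rw [show P.val N - aeval t (jet ξ η N) =
    ev2 (algebraMap K F) P.x (aeval t η) N.derivative * (P.y - aeval t η) +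
      z * (P.y - aeval t η) ^ 2 by rw [val, he]; ring, P.ev2_jet]
  exact (((ordGE_aeval hv.le _).mul h1).mono (by simp)).add
    ((hz.mul (h1.pow 2)).mono (by push_cast; omega))

/-- The order is a multiple of the ramification index, read off from any long enough expansion. -/
theorem ordGE_val_iff (hg : P.Good ξ) (hv : 0 < v.ord (P.x - algebraMap K F ξ)) {η₀ : K}
    (hη₀ : OrdGE v 1 (P.y - algebraMap K F η₀)) {η : K[X]} {m : ℕ} (h0 : η.eval 0 = η₀)
    (hη : (X : K[X]) ^ m ∣ jet ξ η P.Φ) (N : K[X][X]) :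
    (OrdGE v ((m : ℤ) * v.ord (P.x - algebraMap K F ξ)) (P.val N) ↔
        (X : K[X]) ^ m ∣ jet ξ η N) ∧
      (¬ (X : K[X]) ^ m ∣ jet ξ η N → v.ord (P.x - algebraMap K F ξ) ∣ v.ord (P.val N)) := by
  have hd := P.ordGE_val_sub hg hv hη₀ h0 hη N
  set t := P.x - algebraMap K F ξ
  have hlow : ¬ (X : K[X]) ^ m ∣ jet ξ η N → ∃ i : ℕ, i < m ∧ P.val N ≠ 0 ∧
      v.ord (P.val N) = (i : ℤ) * v.ord t := fun hnd => by
    have hj : jet ξ η N ≠ 0 := fun h => hnd (h ▸ dvd_zero _)
    obtain ⟨i, q, hiq, hq⟩ := exists_eq_X_pow_mul hj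
    have hi : i < m := not_le.1 fun h => hnd (hiq ▸ (pow_dvd_pow X h).trans (dvd_mul_right _ _))
    have htne : t ≠ 0 := fun h => by rw [h, v.ord_zero] at hv; exact lt_irrefl _ hv
    have hq0 : q ≠ 0 := fun h => hq (by rw [h, coeff_zero])
    have hat : aeval t q ≠ 0 := aeval_ne_zero (transcendental_sub P.tr ξ) hq0
    have hne : aeval t (jet ξ η N) ≠ 0 := by
      rw [hiq, map_mul, map_pow, aeval_X]
      exact mul_ne_zero (pow_ne_zero _ htne) hat
    have hord : v.ord (aeval t (jet ξ η N)) = (i : ℤ) * v.ord t := by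
      rw [hiq, map_mul, map_pow, aeval_X, v.ord_mul (pow_ne_zero _ htne) hat, ord_pow,
        (ord_aeval_eq_zero hv hq).1, add_zero]
    have hlt : (i : ℤ) * v.ord t < (m : ℤ) * v.ord t :=
      mul_lt_mul_of_pos_right (by exact_mod_cast hi) hv
    have h2 : P.val N - aeval t (jet ξ η N) = 0 ∨
        v.ord (aeval t (jet ξ η N)) < v.ord (P.val N - aeval t (jet ξ η N)) := by
      rcases hd with h | h
      · exact Or.inl h
      · exact Or.inr (by omega)
    have h3 := ord_add_eq_left hne h2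
    rw [add_sub_cancel] at h3
    exact ⟨i, hi, h3.2, by rw [h3.1, hord]⟩
  refine ⟨⟨fun h => ?_, fun ⟨q, hq⟩ => ?_⟩, fun h => ?_⟩
  · by_contra hnd
    obtain ⟨i, hi, hne, hord⟩ := hlow hnd
    have := h.le_ord hne
    rw [hord] at this
    nlinarith [(by exact_mod_cast hi : (i : ℤ) < m)]
  · have h4 : OrdGE v ((m : ℤ) * v.ord t) (aeval t (jet ξ η N)) := by
      rw [hq, map_mul, map_pow, aeval_X]
      exact (((ordGE_ord v t).pow m).mul (ordGE_aeval hv.le q)).mono (by simp)
    simpa using hd.add h4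
  · obtain ⟨i, -, -, hord⟩ := hlow h
    exact hord ▸ dvd_mul_left _ _

theorem val_span (f : F) :
    ∃ D : K[X], aeval P.x D ≠ 0 ∧ ∃ N : K[X][X], aeval P.x D * f = P.val N :=
  let ⟨D, hD, N, h⟩ := P.span f
  ⟨D, aeval_ne_zero P.tr hD, N, h⟩

theorem val_C (D : K[X]) : P.val (C D) = aeval P.x D := by
  rw [val, ev2_apply, eval₂_C]
  rfl

/-- Over a general value the coordinate is a local parameter. -/
theorem ord_eq_one (hg : P.Good ξ) (hv : 0 < v.ord (P.x - algebraMap K F ξ)) :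
    v.ord (P.x - algebraMap K F ξ) = 1 := by
  obtain ⟨η₀, hmem, hη₀⟩ := P.exists_root hg hv
  have key : ∀ N : K[X][X], P.val N ≠ 0 →
      v.ord (P.x - algebraMap K F ξ) ∣ v.ord (P.val N) := fun N hN => by
    set m := (v.ord (P.val N)).natAbs + 1
    obtain ⟨η, h0, hη⟩ := P.exists_jet hg ((P.mem_fibRoots hg).1 hmem) m
    obtain ⟨h1, h2⟩ := P.ordGE_val_iff hg hv hη₀ h0 hη N
    refine h2 fun hd => ?_
    have h3 := (h1.2 hd).le_ord hN
    have : (m : ℤ) * 1 ≤ (m : ℤ) * v.ord (P.x - algebraMap K F ξ) := by gcongr; omega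
    omega
  obtain ⟨u, hu0, hu⟩ := exists_uniformizer v
  obtain ⟨D, hD, N, hN⟩ := P.val_span u
  have h1 := key N (hN ▸ mul_ne_zero hD hu0)
  have h2 := key (C D) (by rwa [P.val_C])
  rw [← hN, v.ord_mul hD hu0, hu] at h1
  rw [P.val_C] at h2
  have h3 := (dvd_add_right h2).1 h1
  exact Int.eq_one_of_dvd_one hv.le h3

/-- A place over a general value is determined by the value of the second coordinate. -/
theorem place_eq (hg : P.Good ξ) (hv : 0 < v.ord (P.x - algebraMap K F ξ)) {w : Place K F}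
    (hw : 0 < w.ord (P.x - algebraMap K F ξ)) {η₀ : K}
    (hη₀ : OrdGE v 1 (P.y - algebraMap K F η₀)) (hη₀' : OrdGE w 1 (P.y - algebraMap K F η₀))
    (hmem : η₀ ∈ P.fibRoots ξ) : v = w := by
  by_contra hne
  obtain ⟨f, hfv, hfw⟩ := exists_pos_neg hne
  have hf0 : f ≠ 0 := by rintro rfl; simp at hfv
  obtain ⟨D, hD, N, hN⟩ := P.val_span f
  have key : ∀ N : K[X][X], P.val N ≠ 0 → v.ord (P.val N) ≤ w.ord (P.val N) := fun N hN => by
    obtain ⟨c, hc⟩ : ∃ c : ℕ, (c : ℤ) = max (v.ord (P.val N)) 0 := ⟨_, Int.toNat_of_nonneg (le_max_right _ _)⟩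
    obtain ⟨η, h0, hη⟩ := P.exists_jet hg ((P.mem_fibRoots hg).1 hmem) c
    obtain ⟨hv1, -⟩ := P.ordGE_val_iff hg hv hη₀ h0 hη N
    obtain ⟨hw1, -⟩ := P.ordGE_val_iff hg hw hη₀' h0 hη N
    rw [P.ord_eq_one hg hv, mul_one] at hv1
    rw [P.ord_eq_one hg hw, mul_one] at hw1
    by_cases hle : (c : ℤ) ≤ v.ord (P.val N)
    · have h := (hw1.2 (hv1.1 (ordGE_of_le hle))).le_ord hN
      omega
    · have h2 := (hw1.2 (by
        obtain ⟨c', rfl⟩ : ∃ c', c = c' := ⟨c, rfl⟩
        have : (c : ℤ) = 0 := by omega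
        rw [show c = 0 by exact_mod_cast this, pow_zero]; exact one_dvd _)).le_ord hN
      omega
  have key' : ∀ N : K[X][X], P.val N ≠ 0 → w.ord (P.val N) ≤ v.ord (P.val N) := fun N hN => by
    obtain ⟨c, hc⟩ : ∃ c : ℕ, (c : ℤ) = max (w.ord (P.val N)) 0 := ⟨_, Int.toNat_of_nonneg (le_max_right _ _)⟩
    obtain ⟨η, h0, hη⟩ := P.exists_jet hg ((P.mem_fibRoots hg).1 hmem) c
    obtain ⟨hv1, -⟩ := P.ordGE_val_iff hg hv hη₀ h0 hη N
    obtain ⟨hw1, -⟩ := P.ordGE_val_iff hg hw hη₀' h0 hη N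
    rw [P.ord_eq_one hg hv, mul_one] at hv1
    rw [P.ord_eq_one hg hw, mul_one] at hw1
    by_cases hle : (c : ℤ) ≤ w.ord (P.val N)
    · have h := (hv1.2 (hw1.1 (ordGE_of_le hle))).le_ord hN
      omega
    · have h2 := (hv1.2 (by
        have : (c : ℤ) = 0 := by omega
        rw [show c = 0 by exact_mod_cast this, pow_zero]; exact one_dvd _)).le_ord hN
      omega
  have hN0 : P.val N ≠ 0 := hN ▸ mul_ne_zero hD hf0
  have h1 := le_antisymm (key N hN0) (key' N hN0)
  have h2 := le_antisymm (key (C D) (by rwa [P.val_C])) (key' (C D) (by rwa [P.val_C]))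
  rw [← hN, v.ord_mul hD hf0, w.ord_mul hD hf0] at h1
  rw [P.val_C] at h2
  omega

/-- Every root over a general value is the value at exactly one place. -/
theorem exists_place (hg : P.Good ξ) {η₀ : K} (hmem : η₀ ∈ P.fibRoots ξ) :
    ∃ v : Place K F, v.ord (P.x - algebraMap K F ξ) = 1 ∧
      OrdGE v 1 (P.y - algebraMap K F η₀) := by
  classical
  set t := P.x - algebraMap K F ξ
  choose r hrm hr using fun v : ↥(zerosOf K t) => P.exists_root hg (mem_zerosOf.1 v.2)
  have hinj : Function.Injective r := fun v w h => Subtype.ext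
    (P.place_eq hg (mem_zerosOf.1 v.2) (mem_zerosOf.1 w.2) (hr v) (h ▸ hr w) (hrm v))
  have hcard : (zerosOf K t).card = P.n := by
    have h := sum_ord_zerosOf (transcendental_sub P.tr ξ)
    rw [finrank_adjoin_sub, P.finrank_eq, Finset.sum_congr rfl
      fun v hv => P.ord_eq_one hg (mem_zerosOf.1 hv)] at h
    simpa using h
  have himg : Finset.univ.image r = P.fibRoots ξ := by
    refine Finset.eq_of_subset_of_card_le (Finset.image_subset_iff.2 fun v _ => hrm v) ?_
    rw [Finset.card_image_of_injective _ hinj, Finset.card_univ, Fintype.card_coe, hcard,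
      P.card_fibRoots hg]
  obtain ⟨v, -, hv⟩ := Finset.mem_image.1 (himg.symm ▸ hmem)
  exact ⟨v, P.ord_eq_one hg (mem_zerosOf.1 v.2), hv ▸ hr v⟩

end PlaneData

end FLTAgent.Jac27.Lift
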