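import Fermat.Agent.Jac27.Lift.Plane
import Fermat.Agent.Specialization.Divisors
import Mathlib.FieldTheory.PrimitiveElement

/-!
# A coordinate with separable reduction, and integral plane models
-/

set_option autoImplicit false
set_option linter.style.haveILetI false
set_option linter.unusedSectionVars false

noncomputable section

namespace FLTAgent.Jac27.Lift

open AlgebraicCurve FLTAgent.Curves FLTAgent.Specialization Polynomial IntermediateField

variable {L k : Type*} [Field L] [Field k] {A : ValuationSubring L} {π : A →+* k}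
variable {F Fb : Type*} [Field F] [Field Fb] [Algebra L F] [Algebra k Fb]
variable [IsAlgClosed L] [IsFunctionField L F] [IsAlgClosed k] [IsFunctionField k Fb]

/-- A smooth model has a coordinate of degree prime to the residue characteristic. -/
theorem exists_model (M : Model π F Fb) (hM : M.Smooth) :
    ∃ M' : Model π F Fb, M'.Smooth ∧ (Module.finrank k⟮M'.xb⟯ Fb : k) ≠ 0 := by
  classical
  obtain ⟨P, -⟩ := exists_ord_pos (K := L) M.transcendental_x
  obtain ⟨n, hnb, hn1, hnk⟩ : ∃ n : ℕ, M.bound ≤ n ∧ 1 ≤ n ∧ (n : k) ≠ 0 := by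
    set n₀ := M.bound.toNat + 1
    have h0 := Int.self_le_toNat M.bound
    by_cases h : (n₀ : k) = 0
    · refine ⟨n₀ + 1, by push_cast [n₀]; omega, by omega, ?_⟩
      rw [Nat.cast_succ, h, zero_add]
      exact one_ne_zero
    · exact ⟨n₀, by push_cast [n₀]; omega, by omega, h⟩
  set G : Divisor L F := Finsupp.single P (n : ℤ) with hG
  have hGdeg : Divisor.degree G = n := degree_single' P _
  have hGb : Model.divMap hM G = Finsupp.single (Model.place hM P) (n : ℤ) := Model.divMap_single hM P _
  set Q := Model.place hM P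
  obtain ⟨ub, hub, hexact⟩ := exists_exact (G := Model.divMap hM G) (by
    rw [Model.degree_divMap, hGdeg]
    rw [Model.bound] at hnb
    omega) Q
  have hord : Q.ord ub = -(n : ℤ) := by
    rw [((exact_iff hub).1 hexact).2, hGb, Finsupp.single_eq_same]
  have hubt : Transcendental k ub := transcendental_of_ord_ne_zero (v := Q) (by omega)
  obtain ⟨u, hu, hur⟩ := (Reduction.mem_image M.surj).1
    (Model.image_rrSpace hM (by omega : M.bound ≤ Divisor.degree G) ▸ hub)
  have hut : Transcendental L u := by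
    rintro ⟨p, hp, hp0⟩
    obtain ⟨c, q, -, hq, h⟩ := Reduction.exists_scale_aeval hur hubt M.surj hp
    rw [hp0, smul_zero] at h
    exact hubt ⟨q, hq, h.unique M.res_zero⟩
  have hdb : Module.finrank k⟮ub⟯ Fb = n := by
    have h1 : poleDiv k ub = Finsupp.single Q (n : ℤ) := Finsupp.ext fun v => by
      rw [poleDiv_apply, Finsupp.single_apply]
      split_ifs with h
      · subst h; rw [hord]; omega
      · have := mem_rrSpace.1 hub v
        rw [hGb, Finsupp.single_apply, if_neg h] at this
        have := this.le_ord hexact.ne_zero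
        omega
    have h2 := degree_poleDiv hubt
    rw [h1, degree_single'] at h2
    exact_mod_cast h2.symm
  have hdu : Module.finrank L⟮u⟯ F = n := by
    have h2 := degree_poleDiv hut
    have hle : poleDiv L u ≤ G := fun v => by
      rw [poleDiv_apply]
      have h := (mem_rrSpace.1 hu v).le_ord (ne_zero_of_transcendental hut)
      have h0 : 0 ≤ G v := by
        rw [hG, Finsupp.single_apply]; split_ifs <;> omega
      omega
    have hge : Finsupp.single Q (n : ℤ) ≤ Model.divMap hM (poleDiv L u) := by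
      intro v
      rw [Finsupp.single_apply]
      have hnn : 0 ≤ Model.divMap hM (poleDiv L u) v :=
        Model.divMap_nonneg hM (poleDiv_nonneg u) v
      split_ifs with h
      · subst h
        have h3 := congrArg (fun D : Divisor k Fb => D Q) (Model.divMap_divOf hM hur hexact.ne_zero)
        simp only [divOf_eq_sub u, map_sub, Finsupp.sub_apply, divOf_apply, hord] at h3
        have h4 : 0 ≤ Model.divMap hM (poleDiv L u⁻¹) Q :=
          Model.divMap_nonneg hM (poleDiv_nonneg _) Q
        omega
      · exact hnn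
    have h3 := degree_mono hle
    have h4 := degree_mono hge
    rw [degree_single', Model.degree_divMap] at h4
    rw [hGdeg] at h3
    omega
  let M' : Model π F Fb :=
    { toReduction := M.toReduction
      surj := M.surj
      x := u
      xb := ub
      x_res := hur
      transcendental := hubt
      finrank_eq := by rw [hdu, hdb]
      gen := M.gen }
  refine ⟨M', ?_, by show ((Module.finrank k⟮ub⟯ Fb : ℕ) : k) ≠ 0; rwa [hdb]⟩
  obtain ⟨m₀, hm₀⟩ := M'.exists_le_mul (max (rBound L F) (rBound k Fb))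
  refine ⟨m₀, fun m hm => le_of_eq ?_⟩
  have h := hm₀ m hm
  rw [ell_eq (by rw [M'.degree_poles_red]; omega), ell_eq (by rw [M'.degree_poles]; omega),
    M'.degree_poles_red, M'.degree_poles, hM.rGenus_eq]

variable (M : Model π F Fb)

/-- The value over `L` of an integral polynomial in the coordinates. -/
abbrev valA (y : F) : A[X][X] →+* F := ev2 ((algebraMap L F).comp A.subtype) M.x y

/-- The value of its reduction. -/
abbrev valK (yb : Fb) : A[X][X] →+* Fb := ev2 ((algebraMap k Fb).comp π) M.xb yb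

theorem res_valA {y : F} {yb : Fb} (hy : M.Res y yb) (N : A[X][X]) :
    M.Res (valA M y N) (valK M yb N) := by
  induction N using Polynomial.induction_on' with
  | add p q hp hq => simpa using hp.add hq
  | monomial n a =>
    simp only [valA, valK, ev2_apply, eval₂_monomial, coe_eval₂RingHom]
    refine Reduction.Res.mul ?_ (hy.pow n)
    induction a using Polynomial.induction_on' with
    | add p q hp hq => simpa using hp.add hq
    | monomial i c =>
      simp only [eval₂_monomial]
      exact (Reduction.res_algebraMap M.toReduction c).mul (M.x_res.pow i)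

theorem exists_poly_of_aeval_mem {p : L[X]} (h : aeval M.x p ∈ M.O) :
    ∃ P : A[X], P.map A.subtype = p := by
  refine (Polynomial.mem_lifts _).1 ((lifts_iff_coeff_lifts p).2 fun i => ?_)
  by_cases hi : i < p.natDegree + 1
  · rw [Reduction.aeval_eq_sum_fin] at h
    exact ⟨⟨_, Reduction.coord_mem (Reduction.compat_base M.surj M.toReduction)
      (fun i : Fin (p.natDegree + 1) => M.x_res.pow (i : ℕ)) (Reduction.base_total M.surj)
      (Reduction.linearIndependent_pow_res M.transcendental _) (a := fun i => p.coeff i) h ⟨i, hi⟩⟩,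
      rfl⟩
  · exact ⟨0, by rw [coeff_eq_zero_of_natDegree_lt (by omega), map_zero]⟩

theorem exists_frac_of_mem {r : F} (hr : r ∈ L⟮M.x⟯) (hmem : r ∈ M.O) :
    ∃ D N : A[X], D.map π ≠ 0 ∧ aeval M.x (D.map A.subtype) * r = aeval M.x (N.map A.subtype) := by
  obtain ⟨p, q, rfl⟩ := (mem_adjoin_simple_iff L r).1 hr
  rcases eq_or_ne q 0 with rfl | hq0
  · exact ⟨1, 0, by simp, by simp⟩
  have hne := aeval_ne_zero M.transcendental_x hq0
  obtain ⟨c, qb, hc, hqb, hres⟩ :=
    Reduction.exists_scale_aeval M.x_res M.transcendental M.surj hq0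
  rw [← map_smul] at hres
  obtain ⟨D, hD⟩ := exists_poly_of_aeval_mem M hres.mem
  have hN : aeval M.x (c • p) ∈ M.O := by
    have := mul_mem hres.mem hmem
    rwa [map_smul, smul_mul_assoc, mul_div_cancel₀ _ hne, ← map_smul] at this
  obtain ⟨N, hN⟩ := exists_poly_of_aeval_mem M hN
  refine ⟨D, N, fun h0 => ?_, ?_⟩
  · have h1 := Reduction.res_aeval M.x_res D
    rw [hD, h0, map_zero] at h1
    exact hqb (by
      by_contra hne'
      exact M.transcendental ⟨qb, hne', hres.unique h1⟩)
  · rw [hD, hN, map_smul, map_smul, smul_mul_assoc, mul_div_cancel₀ _ hne]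

/-- An integral plane model: a second coordinate, its relation, and integral expressions. -/
structure IntPlane where
  y : F
  yb : Fb
  y_res : M.Res y yb
  Φ : A[X][X]
  deg : Φ.natDegree ≤ Module.finrank k⟮M.xb⟯ Fb
  lead : (Φ.coeff (Module.finrank k⟮M.xb⟯ Fb)).map π ≠ 0
  eqn : valA M y Φ = 0
  indep : ∀ N : k[X][X], (∀ j, Module.finrank k⟮M.xb⟯ Fb ≤ j → N.coeff j = 0) →
    ev2 (algebraMap k Fb) M.xb yb N = 0 → N = 0
  rep : ∀ f ∈ M.O, ∃ D : A[X], D.map π ≠ 0 ∧ ∃ N : A[X][X],
    aeval M.x (D.map A.subtype) * f = valA M y N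

theorem nonempty_intPlane (hnk : (Module.finrank k⟮M.xb⟯ Fb : k) ≠ 0) :
    Nonempty (IntPlane M) := by
  classical
  haveI := finiteDimensional_adjoin (K := k) M.transcendental
  haveI := finiteDimensional_adjoin (K := L) M.transcendental_x
  set n := Module.finrank k⟮M.xb⟯ Fb with hn
  haveI : Algebra.IsSeparable k⟮M.xb⟯ Fb := ⟨fun z => by
    have hint : IsIntegral k⟮M.xb⟯ z := IsIntegral.of_finite _ z
    rw [IsSeparable, separable_iff_derivative_ne_zero (minpoly.irreducible hint)]
    intro h0
    have h1 := congrArg (fun p => coeff p ((minpoly k⟮M.xb⟯ z).natDegree - 1)) h0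
    obtain ⟨d, hd⟩ : ∃ d, (minpoly k⟮M.xb⟯ z).natDegree = d + 1 :=
      ⟨_, (Nat.succ_pred_eq_of_pos (minpoly.natDegree_pos hint)).symm⟩
    simp only [coeff_derivative, coeff_zero, hd, Nat.add_sub_cancel] at h1
    rw [← hd, Monic.coeff_natDegree (minpoly.monic hint), one_mul] at h1
    obtain ⟨e, he⟩ : (minpoly k⟮M.xb⟯ z).natDegree ∣ n := minpoly.degree_dvd hint
    apply hnk
    have h2 : ((d + 1 : ℕ) : k) = 0 := by
      have h3 : algebraMap k k⟮M.xb⟯ ((d + 1 : ℕ) : k) = 0 := by rw [map_natCast]; exact_mod_cast h1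
      exact (map_eq_zero_iff _ (algebraMap k k⟮M.xb⟯).injective).1 h3
    rw [he, hd, Nat.cast_mul, h2, zero_mul]⟩
  obtain ⟨γ, hγ⟩ := Field.exists_primitive_element k⟮M.xb⟯ Fb
  have hdeg : (minpoly k⟮M.xb⟯ γ).natDegree = n := by
    rw [← IntermediateField.adjoin.finrank (IsIntegral.of_finite _ γ), hγ,
      IntermediateField.finrank_top']
  have hli : LinearIndependent k⟮M.xb⟯ fun i : Fin n => γ ^ (i : ℕ) := by
    have := linearIndependent_pow (K := k⟮M.xb⟯) γ
    exact this.comp (Fin.cast hdeg.symm) (Fin.cast_injective _)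
  obtain ⟨y, hy⟩ := M.surjective γ
  have hu : ∀ i : Fin n, M.Res (y ^ (i : ℕ)) (γ ^ (i : ℕ)) := fun i => hy.pow _
  have hc := Reduction.lineReduction_compat M.x_res M.transcendental M.surj
  have ht := Reduction.lineReduction_total M.x_res M.transcendental M.surj
  haveI : Nonempty (Fin n) := ⟨⟨0, Module.finrank_pos⟩⟩
  have hspan := (Reduction.linearIndependent_of_res hc hu ht hli).span_eq_top_of_card_eq_finrank
    (by rw [Fintype.card_fin, M.finrank_eq])
  have hrep : ∀ f ∈ M.O, ∃ D : A[X], D.map π ≠ 0 ∧ ∃ N : A[X][X],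
      (∀ j, n ≤ j → N.coeff j = 0) ∧ aeval M.x (D.map A.subtype) * f = valA M y N := by
    intro f hf
    obtain ⟨a, ha⟩ := (Submodule.mem_span_range_iff_exists_fun _).1
      (hspan ▸ Submodule.mem_top : f ∈ Submodule.span L⟮M.x⟯ (Set.range fun i : Fin n => y ^ (i : ℕ)))
    subst ha
    have hmem : ∀ i, (a i : F) ∈ M.O := fun i => by
      obtain ⟨g, hg⟩ := Reduction.exists_res_of_mem _ (Reduction.coord_mem hc hu ht hli hf i)
      exact (Reduction.restrict_res_iff.1 hg).mem
    choose D N hD hDN using fun i => exists_frac_of_mem M (a i).2 (hmem i)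
    refine ⟨∏ i, D i, by rw [Polynomial.map_prod]; exact Finset.prod_ne_zero_iff.2 fun i _ => hD i,
      ∑ i : Fin n, C (N i * ∏ j ∈ Finset.univ.erase i, D j) * X ^ (i : ℕ), fun j hj => ?_, ?_⟩
    · rw [finsetSum_coeff]
      exact Finset.sum_eq_zero fun i _ => by rw [coeff_C_mul_X_pow, if_neg (by omega)]
    · have hv : ∀ p : A[X], eval₂ ((algebraMap L F).comp A.subtype) M.x p =
          aeval M.x (p.map A.subtype) := fun p => by rw [aeval_def, eval₂_map]
      simp only [valA, ev2_apply, eval₂_finsetSum, eval₂_mul, eval₂_C, eval₂_X_pow,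
        coe_eval₂RingHom, hv, Polynomial.map_mul, map_mul, Finset.mul_sum,
        IntermediateField.smul_def, smul_eq_mul]
      refine Finset.sum_congr rfl fun i _ => ?_
      rw [← Finset.mul_prod_erase _ D (Finset.mem_univ i), Polynomial.map_mul, map_mul,
        show ∀ (P Q R S : F), P * Q * (R * S) = P * R * Q * S from fun P Q R S => by ring, hDN i]
  obtain ⟨D₀, hD₀, N₀, hN₀, he₀⟩ := hrep (y ^ n) (pow_mem hy.mem n)
  refine ⟨{
    y := y
    yb := γ
    y_res := hy
    Φ := C D₀ * X ^ n - N₀
    deg := natDegree_le_iff_coeff_eq_zero.2 fun j hj => by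
      rw [coeff_sub, coeff_C_mul_X_pow, if_neg (by omega), hN₀ j (by omega), sub_zero]
    lead := by
      rw [← hn, coeff_sub, coeff_C_mul_X_pow, if_pos rfl, hN₀ n le_rfl, sub_zero]
      exact hD₀
    eqn := by
      simp only [valA, ev2_apply] at he₀ ⊢
      rw [eval₂_sub, eval₂_mul, eval₂_C, eval₂_X_pow, ← he₀, coe_eval₂RingHom, aeval_def,
        eval₂_map]
      exact sub_self _
    indep := fun N hN h0 => by
      have hsum : ∑ i : Fin n, (⟨aeval M.xb (N.coeff i), by
          exact (mem_adjoin_simple_iff k _).2 ⟨N.coeff i, 1, by simp⟩⟩ : k⟮M.xb⟯) • γ ^ (i : ℕ) = 0 := by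
        rw [← h0, ev2_apply, eval₂_eq_sum_range' (eval₂RingHom (algebraMap k Fb) M.xb)
          (n := n) ((natDegree_le_iff_coeff_eq_zero (n := n - 1)).2
            (fun j hj => hN j (by omega)) |>.trans_lt (Nat.sub_lt Module.finrank_pos one_pos)),
          ← Fin.sum_univ_eq_sum_range]
        exact Finset.sum_congr rfl fun i _ => by simp [IntermediateField.smul_def, aeval_def]
      refine Polynomial.ext fun j => ?_
      rw [coeff_zero]
      by_cases hj : n ≤ j
      · exact hN j hj
      · by_contra hne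
        have h1 := congrArg Subtype.val
          (Fintype.linearIndependent_iff.1 hli _ hsum ⟨j, not_le.1 hj⟩)
        exact aeval_ne_zero M.transcendental hne h1
    rep := fun f hf =>
      let ⟨D, hD, N, _, h⟩ := hrep f hf
      ⟨D, hD, N, h⟩ }⟩

namespace IntPlane

variable {M} (I : IntPlane M)

/-- The degree of the cover. -/
abbrev n (_I : IntPlane M) : ℕ := Module.finrank k⟮M.xb⟯ Fb

/-- The plane model over `L`. -/
def planeL : PlaneData L F where
  x := M.x
  y := I.y
  Φ := I.Φ.map (mapRingHom A.subtype)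
  n := I.n
  tr := M.transcendental_x
  eqn := by rw [ev2_map]; exact I.eqn
  deg := natDegree_map_le.trans I.deg
  finrank_eq := M.finrank_eq
  span f := by
    rcases eq_or_ne f 0 with rfl | hf
    · exact ⟨1, one_ne_zero, 0, by simp⟩
    obtain ⟨c, g, hg, hcg⟩ := M.scaled f hf
    have hc : c ≠ 0 := by rintro rfl; rw [zero_smul] at hcg; exact hg (hcg.unique M.res_zero)
    obtain ⟨D, hD, N, h⟩ := I.rep _ hcg.mem
    refine ⟨Polynomial.C c * D.map A.subtype, mul_ne_zero (C_ne_zero.2 hc) fun h0 => hD ?_,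
      N.map (mapRingHom A.subtype), ?_⟩
    · have : D = 0 := (Polynomial.map_eq_zero_iff Subtype.val_injective).1 h0
      simp [this]
    · rw [ev2_map, ← valA, ← h, map_mul, aeval_C, Algebra.smul_def]
      ring

/-- The plane model over the residue field. -/
def planeK : PlaneData k Fb where
  x := M.xb
  y := I.yb
  Φ := I.Φ.map (mapRingHom π)
  n := I.n
  tr := M.transcendental
  eqn := by
    rw [ev2_map]
    have h := res_valA M I.y_res I.Φ
    rw [I.eqn] at h
    exact (M.res_zero.unique h).symm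
  deg := natDegree_map_le.trans I.deg
  finrank_eq := rfl
  span g := by
    obtain ⟨f, hf⟩ := M.surjective g
    obtain ⟨D, hD, N, h⟩ := I.rep f hf.mem
    refine ⟨D.map π, hD, N.map (mapRingHom π), ?_⟩
    have h1 := (Reduction.res_aeval M.x_res D).mul hf
    rw [h] at h1
    rw [ev2_map]
    exact h1.unique (res_valA M I.y_res N)

/-- Division with powers of the leading coefficient. -/
theorem exists_div (P : k[X][X]) : ∃ (e : ℕ) (q r : k[X][X]),
    (∀ j, I.n ≤ j → r.coeff j = 0) ∧
      C ((I.planeK.Φ.coeff I.n) ^ e) * P = q * I.planeK.Φ + r := by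
  induction P using Polynomial.induction_on with
  | C a =>
    refine ⟨0, 0, C a, fun j hj => ?_, by simp⟩
    haveI := finiteDimensional_adjoin (K := k) M.transcendental
    have h0 : 0 < I.n := Module.finrank_pos
    rw [coeff_C, if_neg (Nat.pos_iff_ne_zero.1 (lt_of_lt_of_le h0 hj))]
  | add p q hp hq =>
    obtain ⟨e, u, r, hr, h⟩ := hp
    obtain ⟨e', u', r', hr', h'⟩ := hq
    refine ⟨e + e', C (I.planeK.Φ.coeff I.n ^ e') * u + C (I.planeK.Φ.coeff I.n ^ e) * u',
      C (I.planeK.Φ.coeff I.n ^ e') * r + C (I.planeK.Φ.coeff I.n ^ e) * r',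
      fun j hj => by rw [coeff_add, coeff_C_mul, coeff_C_mul, hr j hj, hr' j hj]; ring, ?_⟩
    rw [pow_add, map_mul]
    linear_combination C (I.planeK.Φ.coeff I.n ^ e') * h + C (I.planeK.Φ.coeff I.n ^ e) * h'
  | monomial m a hm =>
    obtain ⟨e, u, r, hr, h⟩ := hm
    set c := (r * X).coeff I.n
    set l := I.planeK.Φ.coeff I.n
    refine ⟨e + 1, C l * u * X + C c, C l * (r * X) - C c * I.planeK.Φ, fun j hj => ?_, ?_⟩
    · rw [coeff_sub, coeff_C_mul, coeff_C_mul]
      rcases eq_or_lt_of_le hj with h1 | h1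
      · subst h1; simp only [l, c]; ring
      · obtain ⟨j, rfl⟩ : ∃ i, j = i + 1 := ⟨j - 1, by omega⟩
        rw [coeff_mul_X, hr j (by omega),
          natDegree_le_iff_coeff_eq_zero.1 I.planeK.deg (j + 1) h1]
        ring
    · rw [pow_succ, map_mul, pow_succ X m]
      linear_combination (C l * X) * h

/-- Away from finitely many values the reduced plane model is good. -/
theorem exists_bad (hnk : (I.n : k) ≠ 0) :
    ∃ s : Finset k, ∀ ξ, ξ ∉ s → I.planeK.Good ξ := by
  classical
  set l := I.planeK.Φ.coeff I.n with hl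
  have hl0 : l ≠ 0 := by
    show (I.Φ.map (mapRingHom π)).coeff _ ≠ 0
    rw [coeff_map]; exact I.lead
  have hn0 : 0 < I.n := by
    rcases Nat.eq_zero_or_pos I.n with h | h
    · exact absurd (by rw [h, Nat.cast_zero]) hnk
    · exact h
  have hder : I.planeK.val I.planeK.Φ.derivative ≠ 0 := fun h0 => by
    have h1 := I.indep _ (fun j hj => by
      rw [coeff_derivative, natDegree_le_iff_coeff_eq_zero.1 I.planeK.deg (j + 1)
        (Nat.lt_succ_of_le hj), zero_mul]) h0
    have h2 := congrArg (fun p => coeff p (I.n - 1)) h1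
    simp only [coeff_derivative, coeff_zero, Nat.sub_add_cancel hn0] at h2
    rw [mul_eq_zero] at h2
    rcases h2 with h2 | h2
    · exact hl0 h2
    · refine hnk ?_
      have h3 : ((I.n : k[X])) = 0 := by
        rw [show I.n = I.n - 1 + 1 by omega]; exact_mod_cast h2
      rw [← map_natCast (Polynomial.C), C_eq_zero] at h3
      exact h3
  obtain ⟨D, hD, N, hN⟩ := I.planeK.span (I.planeK.val I.planeK.Φ.derivative)⁻¹
  obtain ⟨e, q, r, hr, h⟩ := I.exists_div (N * I.planeK.Φ.derivative - C D)
  have hr0 : r = 0 := I.indep r hr (by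
    have h1 := congrArg I.planeK.val h
    simp only [map_add, map_mul, map_sub, PlaneData.val_C] at h1
    have h2 : I.planeK.val I.planeK.Φ = 0 := I.planeK.eqn
    rw [h2, mul_zero, zero_add,
      show I.planeK.val N = _ from hN.symm, inv_mul_cancel_right₀ hder, sub_self, mul_zero] at h1
    exact h1.symm)
  refine ⟨(l * D).roots.toFinset, fun ξ hξ => ?_⟩
  rw [Multiset.mem_toFinset, mem_roots (mul_ne_zero hl0 hD), IsRoot.def, eval_mul,
    mul_eq_zero, not_or] at hξ
  refine ⟨hξ.1, fun η hη hη' => hξ.2 ?_⟩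
  have h1 := congrArg (fun P : k[X][X] => (P.map (evalRingHom ξ)).eval η) h
  simp only [hr0, add_zero, Polynomial.map_mul, Polynomial.map_sub, map_C, coe_evalRingHom,
    eval_mul, eval_sub, eval_C, hη, hη', mul_zero, zero_sub, eval_pow] at h1
  simp only [mul_eq_zero, neg_eq_zero, pow_eq_zero_iff'] at h1
  rcases h1 with h1 | h1
  · exact absurd h1.1 hξ.1
  · exact h1

/-- Lifts of good values are good. -/
theorem good_lift {ξ : A} (hg : I.planeK.Good (π ξ)) : I.planeL.Good (ξ : L) := by
  have hlead : π ((I.Φ.coeff I.n).eval ξ) ≠ 0 := by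
    have h := hg.lead
    simp only [planeK, coeff_map, coe_mapRingHom, eval_map] at h
    rwa [eval₂_at_apply] at h
  refine ⟨fun h0 => hlead ?_, fun η hη hη' => ?_⟩
  · simp only [planeL, coeff_map, coe_mapRingHom, eval_map] at h0
    rw [show (ξ : L) = A.subtype ξ from rfl, eval₂_at_apply] at h0
    rw [show (I.Φ.coeff I.n).eval ξ = 0 from Subtype.ext h0, map_zero]
  -- the root is integral
  set p : A[X] := I.Φ.map (evalRingHom ξ) with hp
  have hpe : I.planeL.Φ.map (evalRingHom (ξ : L)) = p.map A.subtype := by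
    simp only [planeL, hp, Polynomial.map_map]
    refine congrArg (fun φ => Polynomial.map φ I.Φ) (Polynomial.ringHom_ext (fun a => ?_) ?_) <;> simp
  have hpd : I.planeL.Φ.derivative.map (evalRingHom (ξ : L)) = p.derivative.map A.subtype := by
    rw [← derivative_map, hpe, derivative_map]
  have hpk : I.planeK.Φ.map (evalRingHom (π ξ)) = p.map π := by
    simp only [planeK, hp, Polynomial.map_map]
    refine congrArg (fun φ => Polynomial.map φ I.Φ) (Polynomial.ringHom_ext (fun a => ?_) ?_) <;> simp
  rw [hpe] at hη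
  rw [hpd] at hη'
  have hmem : η ∈ A := by
    by_contra hη0
    have hne : η ≠ 0 := fun h => hη0 (h ▸ zero_mem A)
    have hinv : η⁻¹ ∈ A := (A.mem_or_inv_mem η).resolve_left hη0
    have hπ0 : π ⟨η⁻¹, hinv⟩ = 0 :=
      Reduction.map_eq_zero_of_inv_notMem M.surj (a := ⟨η⁻¹, hinv⟩) (by rwa [inv_inv])
    have hd : p.natDegree ≤ I.n := natDegree_map_le.trans I.deg
    rw [eval_map, eval₂_eq_sum_range' _ (Nat.lt_succ_of_le hd)] at hη
    have h1 : ∑ i ∈ Finset.range (I.n + 1), p.coeff i * ⟨η⁻¹, hinv⟩ ^ (I.n - i) = 0 := by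
      refine Subtype.ext ?_
      push_cast
      rw [← mul_zero ((η⁻¹) ^ I.n), ← hη, Finset.mul_sum]
      refine Finset.sum_congr rfl fun i hi => ?_
      rw [Finset.mem_range] at hi
      rw [show η⁻¹ ^ I.n = η⁻¹ ^ (I.n - i) * η⁻¹ ^ i by rw [← pow_add]; congr 1; omega,
        show η⁻¹ ^ (I.n - i) * η⁻¹ ^ i * (A.subtype (p.coeff i) * η ^ i) =
          A.subtype (p.coeff i) * η⁻¹ ^ (I.n - i) * (η⁻¹ * η) ^ i by ring,
        inv_mul_cancel₀ hne, one_pow, mul_one]
      rfl
    refine hlead ?_
    have h2 := congrArg π h1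
    rw [map_sum, map_zero, Finset.sum_range_succ] at h2
    simp only [Nat.sub_self, pow_zero, mul_one] at h2
    rw [Finset.sum_eq_zero fun i hi => by
      rw [map_mul, map_pow, hπ0, zero_pow (by rw [Finset.mem_range] at hi; omega), mul_zero],
      zero_add] at h2
    rwa [hp, coeff_map, coe_evalRingHom] at h2
  set w : A := ⟨η, hmem⟩
  have hw : ∀ q : A[X], (q.map A.subtype).eval η = ((q.eval w : A) : L) := fun q => by
    rw [eval_map, ← eval₂_id (x := w) (p := q)]
    exact (hom_eval₂ q (RingHom.id A) A.subtype w).symm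
  rw [hw] at hη hη'
  have hk : ∀ q : A[X], (q.map π).eval (π w) = π (q.eval w) := fun q => by
    rw [eval_map, ← eval₂_id (x := w) (p := q)]
    exact (hom_eval₂ q (RingHom.id A) π w).symm
  have h3 := hg.sep (π w) (by
    rw [hpk, hk, show p.eval w = 0 from Subtype.ext hη, map_zero])
  rw [← derivative_map, hpk, derivative_map, hk, show p.derivative.eval w = 0 from Subtype.ext hη',
    map_zero] at h3
  exact h3 rfl

end IntPlane

end FLTAgent.Jac27.Lift
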