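import Fermat.Agent.Jac27.Lift.Hensel
import Fermat.Agent.Jac27.Lift.Plane
import Mathlib.Algebra.DualNumber

/-!
# The system of a function with zeros of high order at moving points

Its linearisation is surjective when the functions vanishing to one order less at the residual
points form a space of the expected dimension.
-/

set_option autoImplicit false
set_option linter.style.haveILetI false
set_option linter.unusedSectionVars false

noncomputable section

namespace FLTAgent.Jac27.Lift

open Polynomial FLTAgent.Specialization TrivSqZeroExt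

theorem jet_map {R S : Type*} [CommRing R] [CommRing S] (ψ : R →+* S) (ξ : R) (η : R[X])
    (N : R[X][X]) : (jet ξ η N).map ψ = jet (ψ ξ) (η.map ψ) (N.map (mapRingHom ψ)) := by
  have h := map_ev2 (C : R →+* R[X]) (mapRingHom ψ) (C ξ + X) η N
  rw [coe_mapRingHom] at h
  rw [jet, jet, ev2_map, h]
  congr 1
  · congr 1
    · exact RingHom.ext fun r => by simp
    · simp

theorem jet_congr {R : Type*} [CommRing R] (ξ : R) {η η' : R[X]} {m : ℕ}
    (h : (X : R[X]) ^ m ∣ η - η') (N : R[X][X]) : (X : R[X]) ^ m ∣ jet ξ η N - jet ξ η' N := by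
  rw [jet, jet, ev2_apply, ev2_apply, ← eval_map, ← eval_map]
  exact h.trans (sub_dvd_eval_sub η η' _)

theorem jet_shift {R : Type*} [CommRing R] (ξ e : R) (η : R[X]) (N : R[X][X]) :
    jet (ξ + e) (η.comp (X + C e)) N = (jet ξ η N).comp (X + C e) := by
  have h := map_ev2 (C : R →+* R[X]) (compRingHom (X + C e)) (C ξ + X) η N
  simp only [coe_compRingHom] at h
  rw [jet, jet, h]
  congr 1
  · congr 1
    · exact RingHom.ext fun r => by simp
    · simp only [add_comp, C_comp, X_comp, map_add]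
      ring

theorem comp_shift {R : Type*} [CommRing R] {e : R} (he : e * e = 0) (p : R[X]) :
    p.comp (X + C e) = p + C e * derivative p := by
  obtain ⟨z, hz⟩ := binomExpansion (p.map C) (X : R[X]) (C e)
  rw [derivative_map, eval_map, eval_map, eval_map, sq, ← map_mul, he, map_zero, mul_zero,
    add_zero] at hz
  rw [comp, hz, eval₂_C_X, eval₂_C_X, mul_comm]

theorem jet_add_sq {R : Type*} [CommRing R] (ξ : R) (η : R[X]) {h : R[X]} (hh : h * h = 0)
    (N : R[X][X]) : jet ξ (η + h) N = jet ξ η N + jet ξ η N.derivative * h := by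
  obtain ⟨z, hz⟩ := binomExpansion (N.map (eval₂RingHom C (C ξ + X))) η h
  rw [derivative_map, eval_map, eval_map, eval_map, sq, hh, mul_zero, add_zero] at hz
  exact hz

variable {L k : Type*} [Field L] [Field k] {A : ValuationSubring L} {π : A →+* k}

/-- The unknowns. -/
abbrev Var (r : ℕ) (ι : Type*) (m : ℕ) : Type _ := Fin r ⊕ ι ⊕ ι × Fin m

section Eqns

variable {r : ℕ} {ι : Type*} {m : ℕ} {S : Type*} [CommRing S]

/-- The truncated root. -/
def etaV (c : Var r ι m → S) (i : ι) : S[X] :=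
  ∑ j : Fin m, C (c (.inr (.inr (i, j)))) * X ^ (j : ℕ)

theorem coeff_etaV (c : Var r ι m → S) (i : ι) (j : ℕ) :
    (etaV c i).coeff j = if h : j < m then c (.inr (.inr (i, ⟨j, h⟩))) else 0 := by
  rw [etaV, finsetSum_coeff]
  simp only [coeff_C_mul_X_pow]
  split_ifs with h
  · rw [Finset.sum_eq_single ⟨j, h⟩ (fun l _ hl => if_neg fun e => hl (Fin.ext e.symm))
      (fun h' => absurd (Finset.mem_univ _) h'), if_pos rfl]
  · exact Finset.sum_eq_zero fun l _ => if_neg fun e : j = (l : ℕ) => h (e ▸ l.2)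

theorem natDegree_etaV_lt (c : Var r ι m → S) (i : ι) (hm : 0 < m) :
    (etaV c i).natDegree < m := by
  refine lt_of_le_of_lt (natDegree_le_iff_coeff_eq_zero.2 fun j (hj : m - 1 < j) => ?_)
    (Nat.sub_lt hm one_pos)
  rw [coeff_etaV, dif_neg (by omega)]

variable (φ : A →+* S)

/-- The combination of the functions. -/
def comb (NN : Fin r → A[X][X]) (θ : Fin r → S) : S[X][X] :=
  ∑ l, C (C (θ l)) * (NN l).map (mapRingHom φ)

/-- The expansions of the relation and of the function. -/
def expo (Φ : A[X][X]) (NN : Fin r → A[X][X]) (c : Var r ι m → S) (b : Bool) (i : ι) : S[X] :=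
  jet (c (.inr (.inl i))) (etaV c i)
    (if b then Φ.map (mapRingHom φ) else comb φ NN fun l => c (.inl l))

theorem map_expo {T : Type*} [CommRing T] (g : S →+* T) (Φ : A[X][X]) (NN : Fin r → A[X][X])
    (c : Var r ι m → S) (b : Bool) (i : ι) :
    (expo φ Φ NN c b i).map g = expo (g.comp φ) Φ NN (g ∘ c) b i := by
  rw [expo, expo, jet_map]
  congr 1
  · congr 1
    simp [etaV, Polynomial.map_sum]
  · cases b
    · simp [comb, Polynomial.map_sum, Polynomial.map_map]
    · simp [Polynomial.map_map]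

theorem eval₂_expo (Φ : A[X][X]) (NN : Fin r → A[X][X]) (c : Var r ι m → S) (b : Bool) (i : ι)
    (j : ℕ) : MvPolynomial.eval₂ φ c ((expo (MvPolynomial.C : A →+* MvPolynomial (Var r ι m) A) Φ NN
      MvPolynomial.X b i).coeff j) = (expo φ Φ NN c b i).coeff j := by
  have h := congrArg (fun p => coeff p j) (map_expo MvPolynomial.C
    (MvPolynomial.eval₂Hom φ c) Φ NN (MvPolynomial.X (R := A) (σ := Var r ι m)) b i)
  rw [coeff_map] at h
  refine h.trans ?_
  congr 2
  · exact RingHom.ext fun a => by simp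
  · exact funext fun v => by simp

end Eqns

/-- Residual data with surjective linearisation lift to a solution. -/
theorem exists_solution [IsAlgClosed L] (hπ : Function.Surjective π) (hA : RankOne π) {m : ℕ}
    (hm : (m : k) ≠ 0) {r : ℕ} {ι : Type*} [Fintype ι] (Φ : A[X][X]) (NN : Fin r → A[X][X])
    (θ₀ : Fin r → A) (ξ₀ : ι → A) (ηb : ι → k[X])
    (hJ : ∀ i, (X : k[X]) ^ (m + 1) ∣ jet (π (ξ₀ i)) (ηb i) (Φ.map (mapRingHom π)))
    (hY : ∀ i, (jet (π (ξ₀ i)) (ηb i) (derivative (Φ.map (mapRingHom π)))).eval 0 ≠ 0)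
    (hF : ∀ i, (X : k[X]) ^ m ∣ jet (π (ξ₀ i)) (ηb i) (comb π NN fun l => π (θ₀ l)) ∧
      ¬ (X : k[X]) ^ (m + 1) ∣ jet (π (ξ₀ i)) (ηb i) (comb π NN fun l => π (θ₀ l)))
    (U : Submodule k (Fin r → k))
    (hU : ∀ θ : Fin r → k,
      (∀ i, (X : k[X]) ^ (m - 1) ∣ jet (π (ξ₀ i)) (ηb i) (comb π NN θ)) → θ ∈ U)
    (hdim : Module.finrank k U + Fintype.card ι * m ≤ r + Fintype.card ι) :
    ∃ (θ : Fin r → A) (ξ : ι → A) (η : ι → A[X]), (∀ l, π (θ l) = π (θ₀ l)) ∧
      (∀ i, π (ξ i) = π (ξ₀ i)) ∧ (∀ i, π ((η i).eval 0) = (ηb i).eval 0) ∧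
      (∀ i, (X : A[X]) ^ m ∣ jet (ξ i) (η i) Φ) ∧
      ∀ i, (X : A[X]) ^ m ∣ jet (ξ i) (η i) (∑ l, C (C (θ l)) * NN l) := by
  classical
  have hm0 : 0 < m := Nat.pos_of_ne_zero (by rintro rfl; simp at hm)
  choose e he using fun (q : ι × Fin m) => hπ ((ηb q.1).coeff q.2)
  let c₀ : Var r ι m → A := Sum.elim θ₀ (Sum.elim ξ₀ e)
  let cb : Var r ι m → k := fun v => π (c₀ v)
  let P : Bool × ι × Fin m → MvPolynomial (Var r ι m) A := fun t =>
    (expo MvPolynomial.C Φ NN MvPolynomial.X t.1 t.2.1).coeff t.2.2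
  have hcong : ∀ i, (X : k[X]) ^ m ∣ etaV cb i - ηb i := fun i => X_pow_dvd_iff.2 fun j hj => by
    rw [coeff_sub, coeff_etaV, dif_pos hj]
    simp [cb, c₀, he]
  have hres : ∀ b i, (X : k[X]) ^ m ∣ expo π Φ NN cb b i := fun b i => by
    have h1 : (X : k[X]) ^ m ∣ jet (π (ξ₀ i)) (ηb i)
        (if b then Φ.map (mapRingHom π) else comb π NN fun l => cb (.inl l)) := by
      cases b
      · exact (hF i).1
      · exact (pow_dvd_pow X m.le_succ).trans (hJ i)
    exact (dvd_sub_left h1).1 (jet_congr _ (hcong i) _)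
  -- the linearisation
  let a : Bool × ι × Fin m → Var r ι m → k := fun t v =>
    MvPolynomial.eval₂ π cb (MvPolynomial.pderiv v (P t))
  let T : (Var r ι m → k) →ₗ[k] (Bool × ι × Fin m → k) :=
    { toFun := fun δ t => ∑ v, δ v * a t v
      map_add' := fun δ δ' => funext fun t => by simp [add_mul, Finset.sum_add_distrib]
      map_smul' := fun c δ => funext fun t => by
        simp only [Pi.smul_apply, smul_eq_mul, RingHom.id_apply, Finset.mul_sum, mul_assoc] }
  suffices hsurj : Function.Surjective T by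
    have h0 : ∀ t, π (MvPolynomial.eval c₀ (P t)) = 0 := fun t => by
      rw [MvPolynomial.eval₂_comp π c₀ (P t), show π ∘ c₀ = cb from rfl, eval₂_expo]
      exact X_pow_dvd_iff.1 (hres t.1 t.2.1) _ t.2.2.2
    have hlin : ∀ b : Bool × ι × Fin m → k, ∃ δ : Var r ι m → k, ∀ t,
        ∑ v, δ v * MvPolynomial.eval₂ π (fun v => π (c₀ v)) (MvPolynomial.pderiv v (P t)) = b t :=
      fun b => (hsurj b).imp fun δ hδ => congrFun hδ
    obtain ⟨c, hc, hc0⟩ := hensel hπ hA P c₀ h0 hlin
    refine ⟨fun l => c (.inl l), fun i => c (.inr (.inl i)), etaV c, fun l => hc _,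
      fun i => hc _, fun i => ?_, fun i => X_pow_dvd_iff.2 fun j hj => ?_,
      fun i => X_pow_dvd_iff.2 fun j hj => ?_⟩
    · rw [← coeff_zero_eq_eval_zero, ← coeff_zero_eq_eval_zero, coeff_etaV, dif_pos hm0, hc]
      exact he (i, ⟨0, hm0⟩)
    · have h := eval₂_expo (RingHom.id A) Φ NN c true i j
      rw [MvPolynomial.eval₂_id, hc0 (true, i, ⟨j, hj⟩)] at h
      simpa [expo] using h.symm
    · have h := eval₂_expo (RingHom.id A) Φ NN c false i j
      rw [MvPolynomial.eval₂_id, hc0 (false, i, ⟨j, hj⟩)] at h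
      simpa [expo, comb] using h.symm
  -- the kernel
  let φ : A →+* DualNumber k := (inlHom k k).comp π
  have hT : ∀ δ t, T δ t = snd ((expo φ Φ NN (fun v => inl (cb v) + inr (δ v)) t.1 t.2.1).coeff
      (t.2.2 : ℕ)) := fun δ t => by
    rw [← eval₂_expo φ Φ NN _ t.1 t.2.1 t.2.2, show (fun v => inl (cb v) + inr (δ v) : Var r ι m → DualNumber k) =
      (fun v => inl (cb v)) + fun v => inr (δ v) from rfl,
      eval₂_add_sq φ _ _ (fun i j => inr_mul_inr k _ _)]
    have e1 : ∀ p, MvPolynomial.eval₂ φ (fun v => (inl (cb v) : DualNumber k)) p =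
        inl (MvPolynomial.eval₂ π cb p) := fun p => by
      show _ = inlHom k k (MvPolynomial.eval₂ π cb p)
      rw [← MvPolynomial.coe_eval₂Hom, ← MvPolynomial.coe_eval₂Hom, MvPolynomial.map_eval₂Hom]
      rfl
    simp only [e1, snd_add, snd_inl, zero_add, snd_sum, snd_mul, fst_inr, snd_inr, fst_inl,
      smul_zero, MulOpposite.smul_eq_mul_unop, MulOpposite.unop_op]
    rfl
  have hkey : ∀ δ, T δ = 0 → ∀ i,
      (X : k[X]) ^ m ∣ etaV δ i - C (δ (.inr (.inl i))) * derivative (ηb i) ∧
      (X : k[X]) ^ m ∣ C (δ (.inr (.inl i))) *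
          derivative (jet (π (ξ₀ i)) (ηb i) (comb π NN fun l => π (θ₀ l))) +
        jet (π (ξ₀ i)) (ηb i) (comb π NN fun l => δ (.inl l)) := by
    intro δ hδ i
    have hmi : ∀ x : k, (DualNumber.eps : DualNumber k) * inl x = x • DualNumber.eps := fun x => by
      refine TrivSqZeroExt.ext ?_ ?_ <;> simp
    set cδ : Var r ι m → DualNumber k := fun v => inl (cb v) + inr (δ v) with hcδ
    have hE : ∀ b, (X : (DualNumber k)[X]) ^ m ∣ expo φ Φ NN cδ b i := fun b =>
      X_pow_dvd_iff.2 fun j hj => by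
        refine TrivSqZeroExt.ext ?_ ((hT δ (b, i, ⟨j, hj⟩)).symm.trans (congrFun hδ _))
        have h := congrArg (fun p => coeff p j)
          (map_expo φ (fstHom k k k).toRingHom Φ NN cδ b i)
        rw [coeff_map] at h
        refine h.trans ?_
        rw [show (fstHom k k k).toRingHom.comp φ = π from RingHom.ext fun a => by simp [φ],
          show (fstHom k k k).toRingHom ∘ cδ = cb from funext fun v => by simp [hcδ],
          X_pow_dvd_iff.1 (hres b i) j hj]
        simp
    set u : k := δ (.inr (.inl i))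
    set d : k[X] := etaV δ i - C u * derivative (ηb i) with hd
    let ι' : k[X] →+* (DualNumber k)[X] := mapRingHom (inlHom k k)
    set ε : (DualNumber k)[X] := C (inr 1) with hε
    have hεε : ε * ε = 0 := by rw [hε, ← map_mul, inr_mul_inr, map_zero]
    have hεu : (C (inr u) : (DualNumber k)[X]) = ε * ι' (C u) := by
      simp only [hε, ι', coe_mapRingHom, map_C, ← map_mul, inlHom_apply, inr_mul_inl,
        MulOpposite.smul_eq_mul_unop, MulOpposite.unop_op, one_mul]
    have hι : ∀ p : k[X], (X : (DualNumber k)[X]) ^ m ∣ ε * ι' p → (X : k[X]) ^ m ∣ p :=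
      fun p hp => X_pow_dvd_iff.2 fun j hj => by
        have h := congrArg snd (X_pow_dvd_iff.1 hp j hj)
        simpa [hε, ι', inr_mul_inl] using h
    set b : (DualNumber k)[X] := (ι' (ηb i)).comp (X + C (inr u)) with hb
    have hdiff : (X : (DualNumber k)[X]) ^ m ∣ etaV cδ i - (b + ε * ι' d) := by
      have h1 : etaV cδ i - (b + ε * ι' d) = ι' (etaV cb i - ηb i) := by
        have h2 : etaV cδ i = ι' (etaV cb i) + ε * ι' (etaV δ i) := by
          refine Polynomial.ext fun j => ?_
          simp only [coeff_add, ι', coe_mapRingHom, coeff_map, hε, coeff_C_mul, coeff_etaV]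
          split_ifs with h
          · simp [hcδ, inr_mul_inl, hmi]
          · simp
        rw [h2, hb, comp_shift (by rw [inr_mul_inr]), hεu, hd]
        simp only [map_sub, map_mul, ι', coe_mapRingHom, derivative_map]
        ring
      rw [h1, show (X : (DualNumber k)[X]) ^ m = ι' (X ^ m) by simp [ι']]
      exact map_dvd ι' (hcong i)
    have hξ : cδ (.inr (.inl i)) = inl (π (ξ₀ i)) + inr u := rfl
    have hexp : ∀ (N : k[X][X]), (X : (DualNumber k)[X]) ^ m ∣
        jet (cδ (.inr (.inl i))) (etaV cδ i) (N.map (mapRingHom (inlHom k k))) -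
          (ι' (jet (π (ξ₀ i)) (ηb i) N) +
            ε * ι' (C u * derivative (jet (π (ξ₀ i)) (ηb i) N) +
              jet (π (ξ₀ i)) (ηb i) (derivative N) * d)) := by
      intro N
      have h1 := jet_congr (cδ (.inr (.inl i))) hdiff (N.map (mapRingHom (inlHom k k)))
      have hb' : ∀ M : k[X][X], jet (cδ (.inr (.inl i))) b (M.map (mapRingHom (inlHom k k))) =
          ι' (jet (π (ξ₀ i)) (ηb i) M) +
            ε * ι' (C u * derivative (jet (π (ξ₀ i)) (ηb i) M)) := fun M => by
        have h2 : ι' (jet (π (ξ₀ i)) (ηb i) M) =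
            jet (inl (π (ξ₀ i))) (ι' (ηb i)) (M.map (mapRingHom (inlHom k k))) :=
          jet_map (inlHom k k) _ _ _
        rw [hb, hξ, jet_shift, ← h2, comp_shift (by rw [inr_mul_inr]), hεu, map_mul ι']
        simp only [ι', coe_mapRingHom, derivative_map]
        ring
      have hsq : ε * ι' d * (ε * ι' d) = 0 := by
        linear_combination (ι' d * ι' d) * hεε
      rw [jet_add_sq _ _ hsq, derivative_map, hb', hb',
        show ι' (jet (π (ξ₀ i)) (ηb i) N) + ε * ι' (C u * derivative (jet (π (ξ₀ i)) (ηb i) N)) +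
          (ι' (jet (π (ξ₀ i)) (ηb i) (derivative N)) +
            ε * ι' (C u * derivative (jet (π (ξ₀ i)) (ηb i) (derivative N)))) * (ε * ι' d) =
          ι' (jet (π (ξ₀ i)) (ηb i) N) +
            ε * ι' (C u * derivative (jet (π (ξ₀ i)) (ηb i) N) +
              jet (π (ξ₀ i)) (ηb i) (derivative N) * d) +
            ε * ε * (ι' (C u * derivative (jet (π (ξ₀ i)) (ηb i) (derivative N))) * ι' d) by
              rw [map_add, map_mul ι' (jet (π (ξ₀ i)) (ηb i) (derivative N)) d]; ring,
        hεε, zero_mul, add_zero] at h1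
      exact h1
    -- the relation
    obtain ⟨q, hq⟩ := hJ i
    have hdd : (X : k[X]) ^ m ∣ d := by
      have h1 := hexp (Φ.map (mapRingHom π))
      have h2 : (X : (DualNumber k)[X]) ^ m ∣
          jet (cδ (.inr (.inl i))) (etaV cδ i)
            ((Φ.map (mapRingHom π)).map (mapRingHom (inlHom k k))) := by
        have h := hE true
        simpa [expo, φ, Polynomial.map_map] using h
      rw [dvd_sub_right h2] at h1
      have h3 : (X : k[X]) ^ m ∣ jet (π (ξ₀ i)) (ηb i) (Φ.map (mapRingHom π)) :=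
        (pow_dvd_pow X m.le_succ).trans (hJ i)
      have h4 : (X : (DualNumber k)[X]) ^ m ∣ ι' (jet (π (ξ₀ i)) (ηb i) (Φ.map (mapRingHom π))) := by
        rw [show (X : (DualNumber k)[X]) ^ m = ι' (X ^ m) by simp [ι']]
        exact map_dvd ι' h3
      have h5 := hι _ ((dvd_add_right h4).1 h1)
      have h6 : (X : k[X]) ^ m ∣ C u * derivative (jet (π (ξ₀ i)) (ηb i) (Φ.map (mapRingHom π))) := by
        refine Dvd.dvd.mul_left ?_ _
        have := pow_sub_one_dvd_derivative_of_pow_dvd (hJ i)
        simpa using this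
      exact Prime.pow_dvd_of_dvd_mul_left prime_X m
        (fun hX => hY i (by rwa [X_dvd_iff, coeff_zero_eq_eval_zero] at hX))
        ((dvd_add_right h6).1 h5)
    refine ⟨hdd, ?_⟩
    -- the function
    have hsplit : comb φ NN (fun l => cδ (.inl l)) =
        (comb π NN fun l => π (θ₀ l)).map (mapRingHom (inlHom k k)) +
          C ε * (comb π NN fun l => δ (.inl l)).map (mapRingHom (inlHom k k)) := by
      simp only [comb, Polynomial.map_sum, Polynomial.map_mul, map_C, coe_mapRingHom,
        Polynomial.map_map, Finset.mul_sum, ← Finset.sum_add_distrib]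
      refine Finset.sum_congr rfl fun l _ => ?_
      rw [mapRingHom_comp, ← mul_assoc (C ε), ← map_mul C, hε, ← map_mul C, ← add_mul,
        ← map_add C, ← map_add C]
      congr 3
      simp [hcδ, cb, c₀, φ, inr_mul_inl, hmi]
    have h0 := hE false
    rw [expo, if_neg Bool.false_ne_true, hsplit, map_add, map_mul,
      show jet (cδ (.inr (.inl i))) (etaV cδ i) (C ε) = ε by
        rw [jet, ev2_apply, eval₂_C, coe_eval₂RingHom, hε, eval₂_C]] at h0
    have h1 := hexp (comb π NN fun l => π (θ₀ l))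
    have h2 := Dvd.dvd.mul_left (hexp (comb π NN fun l => δ (.inl l))) ε
    have h3 := dvd_sub (dvd_sub h0 h1) h2
    have h4 : (X : (DualNumber k)[X]) ^ m ∣
        ι' (jet (π (ξ₀ i)) (ηb i) (comb π NN fun l => π (θ₀ l))) := by
      rw [show (X : (DualNumber k)[X]) ^ m = ι' (X ^ m) by simp [ι']]
      exact map_dvd ι' (hF i).1
    set J0 := jet (π (ξ₀ i)) (ηb i) (comb π NN fun l => π (θ₀ l))
    set JY := jet (π (ξ₀ i)) (ηb i) (derivative (comb π NN fun l => π (θ₀ l)))
    set Jd := jet (π (ξ₀ i)) (ηb i) (comb π NN fun l => δ (.inl l))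
    set JdY := jet (π (ξ₀ i)) (ηb i) (derivative (comb π NN fun l => δ (.inl l)))
    have h5 : (X : k[X]) ^ m ∣ C u * derivative J0 + Jd + JY * d := by
      refine hι _ ((dvd_add_right h4).1 ?_)
      refine h3.trans (dvd_of_eq ?_)
      rw [map_add ι' (C u * derivative J0 + Jd), map_add ι' (C u * derivative J0) Jd,
        map_add ι' (C u * derivative J0) (JY * d), map_add ι' (C u * derivative Jd) (JdY * d)]
      linear_combination (ι' (C u * derivative Jd) + ι' (JdY * d)) * hεε
    exact (dvd_add_left (hdd.mul_left JY)).1 h5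
  have hker : Module.finrank k (LinearMap.ker T) ≤ Module.finrank k U := by
    have hX : ∀ δ, T δ = 0 → (fun l => δ (.inl l)) ∈ U := fun δ hδ => hU _ fun i => by
      obtain ⟨-, h2⟩ := hkey δ hδ i
      refine (dvd_add_right ?_).1 ((pow_dvd_pow X (m.sub_le 1)).trans h2)
      exact (pow_sub_one_dvd_derivative_of_pow_dvd (hF i).1).mul_left _
    let g : ↥(LinearMap.ker T) →ₗ[k] ↥U :=
      LinearMap.codRestrict U (LinearMap.pi fun l => (LinearMap.proj (Sum.inl l)).comp
        (LinearMap.ker T).subtype) fun δ => hX δ.1 δ.2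
    refine LinearMap.finrank_le_finrank_of_injective (f := g)
      ((injective_iff_map_eq_zero g).2 fun δ hδ => Subtype.ext (funext fun v => ?_))
    have hθ : ∀ l, δ.1 (.inl l) = 0 := fun l => congrFun (congrArg Subtype.val hδ) l
    have hξη : ∀ i, δ.1 (.inr (.inl i)) = 0 ∧ ∀ j, δ.1 (.inr (.inr (i, j))) = 0 := fun i => by
      obtain ⟨h1, h2⟩ := hkey δ.1 δ.2 i
      rw [show (comb π NN fun l => δ.1 (.inl l)) = 0 by simp [comb, hθ], map_zero, add_zero] at h2
      obtain ⟨⟨q, hq⟩, hq'⟩ := hF i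
      have hu : δ.1 (.inr (.inl i)) = 0 := by
        by_contra hne
        have h3 := X_pow_dvd_iff.1 h2 (m - 1) (by omega)
        rw [coeff_C_mul, coeff_derivative, Nat.sub_add_cancel hm0] at h3
        refine hq' (X_pow_dvd_iff.2 fun j hj => ?_)
        rcases Nat.lt_succ_iff_lt_or_eq.1 hj with hj | hj
        · exact X_pow_dvd_iff.1 ⟨q, hq⟩ j hj
        · rw [hj]
          have hcast : ((m - 1 : ℕ) : k) + 1 = (m : k) := by
            rw [← Nat.cast_succ, Nat.succ_eq_add_one, Nat.sub_add_cancel hm0]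
          rw [hcast, mul_eq_zero, or_iff_right hne, mul_eq_zero, or_iff_left hm] at h3
          exact h3
      refine ⟨hu, fun j => ?_⟩
      rw [hu, map_zero, zero_mul, sub_zero] at h1
      have := X_pow_dvd_iff.1 h1 j j.2
      rwa [coeff_etaV, dif_pos j.2] at this
    rcases v with l | i | ⟨i, j⟩
    · exact hθ l
    · exact (hξη i).1
    · exact (hξη i).2 j
  have hrank := T.finrank_range_add_finrank_ker
  simp only [Module.finrank_fintype_fun_eq_card, Fintype.card_sum, Fintype.card_prod,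
    Fintype.card_fin] at hrank
  refine LinearMap.range_eq_top.1 (Submodule.eq_top_of_finrank_eq ?_)
  refine le_antisymm (Submodule.finrank_le _) ?_
  rw [Module.finrank_fintype_fun_eq_card]
  simp only [Fintype.card_prod, Fintype.card_bool, Fintype.card_fin]
  omega

end FLTAgent.Jac27.Lift
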