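import Fermat.Agent.Jac27.Lift.Places
import Fermat.Agent.Jac27.Lift.System

/-!
# Torsion classes of the reduction lift

A class killed by `m` is represented so that `m` times it is cut out by a function with zeros of
order exactly `m` at the points over many general values; such a configuration deforms to the
generic fibre, since its tangent space has the expected dimension.
-/

set_option autoImplicit false
set_option linter.style.haveILetI false
set_option linter.unusedSectionVars false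

noncomputable section

namespace FLTAgent.Jac27.Lift

open AlgebraicCurve FLTAgent.Curves FLTAgent.Specialization Polynomial IntermediateField

section Gen

variable {K E : Type*} [Field K] [Field E] [Algebra K E] [IsAlgClosed K] [IsFunctionField K E]

theorem divOf_prod {ι : Type*} (s : Finset ι) (f : ι → E) (hf : ∀ i ∈ s, f i ≠ 0) :
    divOf K (∏ i ∈ s, f i) = ∑ i ∈ s, divOf K (f i) := by
  classical
  induction s using Finset.induction with
  | empty =>
    rw [Finset.prod_empty, Finset.sum_empty, ← map_one (algebraMap K E), divOf_algebraMap]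
  | insert a s ha ih =>
    rw [Finset.prod_insert ha, Finset.sum_insert ha,
      divOf_mul (hf a (Finset.mem_insert_self a s))
        (Finset.prod_ne_zero_iff.2 fun i hi => hf i (Finset.mem_insert_of_mem hi)),
      ih fun i hi => hf i (Finset.mem_insert_of_mem hi)]

/-- The divisor of distinct points. -/
def sumPts {ι : Type*} [Fintype ι] (Q : ι → Place K E) : Divisor K E :=
  ∑ i, Finsupp.single (Q i) 1

variable {ι : Type*} [Fintype ι] {Q : ι → Place K E}

theorem sumPts_apply_self (hQ : Function.Injective Q) (i : ι) : sumPts Q (Q i) = 1 := by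
  classical
  rw [sumPts, Finsupp.finsetSum_apply,
    Finset.sum_eq_single i (fun j _ hj => Finsupp.single_eq_of_ne fun e => hj (hQ e.symm))
      (fun h => absurd (Finset.mem_univ i) h), Finsupp.single_eq_same]

theorem sumPts_le {D : Divisor K E} (hD : 0 ≤ D) (hQ : Function.Injective Q)
    (h : ∀ i, 1 ≤ D (Q i)) : sumPts Q ≤ D := fun v => by
  classical
  by_cases hv : ∃ i, Q i = v
  · obtain ⟨i, rfl⟩ := hv
    rw [sumPts_apply_self hQ]; exact h i
  · push Not at hv
    rw [sumPts, Finsupp.finsetSum_apply,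
      Finset.sum_eq_zero fun j _ => Finsupp.single_eq_of_ne fun e => hv j e.symm]
    exact hD v

theorem sumPts_apply_of_ne {v : Place K E} (h : ∀ i, Q i ≠ v) : sumPts Q v = 0 := by
  classical
  rw [sumPts, Finsupp.finsetSum_apply,
    Finset.sum_eq_zero fun j _ => Finsupp.single_eq_of_ne fun e => h j e.symm]

theorem degree_sumPts (Q : ι → Place K E) : Divisor.degree (sumPts Q) = Fintype.card ι := by
  rw [sumPts, map_sum, Finset.sum_congr rfl fun i _ => degree_single' (Q i) 1, Finset.sum_const,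
    Finset.card_univ, nsmul_eq_mul, mul_one]

end Gen

variable {L k : Type*} [Field L] [Field k] {A : ValuationSubring L} {π : A →+* k}
variable {F Fb : Type*} [Field F] [Field Fb] [Algebra L F] [Algebra k Fb]
variable [IsAlgClosed L] [IsFunctionField L F] [IsAlgClosed k] [IsFunctionField k Fb]
variable {M : Model π F Fb}

/-- Every place of the reduction is a specialisation. -/
theorem exists_place_eq (hM : M.Smooth) (Q : Place k Fb) :
    ∃ P : Place L F, Model.place hM P = Q := by
  classical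
  obtain ⟨u, hu0, hu⟩ := exists_uniformizer Q
  obtain ⟨y, hy⟩ := M.surjective u
  have h := congrArg (fun D : Divisor k Fb => D Q) (Model.divMap_divOf hM hy hu0)
  simp only [divOf_apply, hu, Model.divMap_apply] at h
  obtain ⟨P, -, hP⟩ := Finset.mem_image.1
    (Finsupp.mapDomain_support (f := Model.place hM) (s := divOf L y) (x := Q)
      (Finsupp.mem_support_iff.2 (by rw [h]; exact one_ne_zero)))
  exact ⟨P, hP⟩

/-- Effective divisors lift to effective divisors. -/
theorem exists_effective_lift (hM : M.Smooth) {Zb : Divisor k Fb} (hZb : 0 ≤ Zb) :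
    ∃ Z : Divisor L F, 0 ≤ Z ∧ Model.divMap hM Z = Zb := by
  classical
  choose σ hσ using exists_place_eq hM
  refine ⟨Finsupp.mapDomain σ Zb, ?_, ?_⟩
  · rw [Finsupp.mapDomain, Finsupp.sum]
    exact Finset.sum_nonneg fun P _ => Finsupp.single_nonneg.2 (hZb P)
  · rw [Model.divMap_apply, ← Finsupp.mapDomain_comp,
      show Model.place hM ∘ σ = id from funext hσ, Finsupp.mapDomain_id]

theorem exists_common_den (I : IntPlane M) {r : ℕ} (v : Fin r → F) (hv : ∀ l, v l ∈ M.O) :
    ∃ Δ : A[X], Δ.map π ≠ 0 ∧ ∃ NN : Fin r → A[X][X],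
      ∀ l, aeval M.x (Δ.map A.subtype) * v l = valA M I.y (NN l) := by
  classical
  choose D hD N hN using fun l => I.rep (v l) (hv l)
  refine ⟨∏ l, D l, by rw [Polynomial.map_prod]; exact Finset.prod_ne_zero_iff.2 fun l _ => hD l,
    fun l => C (∏ j ∈ Finset.univ.erase l, D j) * N l, fun l => ?_⟩
  rw [map_mul (valA M I.y), ← hN l,
    show valA M I.y (C (∏ j ∈ Finset.univ.erase l, D j)) =
      aeval M.x ((∏ j ∈ Finset.univ.erase l, D j).map A.subtype) by
        rw [valA, ev2_apply, eval₂_C, coe_eval₂RingHom, aeval_def, eval₂_map],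
    ← Finset.mul_prod_erase _ D (Finset.mem_univ l), Polynomial.map_mul, map_mul]
  ring

/-- A torsion class of the reduction lifts to a torsion class. -/
theorem exists_lift (hM : M.Smooth) (hA : RankOne π)
    (hnk : (Module.finrank k⟮M.xb⟯ Fb : k) ≠ 0) {m : ℕ} (hm : (m : k) ≠ 0) {Db : Divisor k Fb}
    (hDdeg : Divisor.degree Db = 0) (hDm : Divisor.IsPrincipal (m • Db)) :
    ∃ D : Divisor L F, Divisor.degree D = 0 ∧ Divisor.IsPrincipal (m • D) ∧
      Divisor.IsPrincipal (Model.divMap hM D - Db) := by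
  classical
  obtain ⟨I⟩ := nonempty_intPlane M hnk
  obtain ⟨bad, hbad⟩ := I.exists_bad hnk
  have hm0 : 0 < m := Nat.pos_of_ne_zero (by rintro rfl; simp at hm)
  set n : ℕ := Module.finrank k⟮M.xb⟯ Fb with hn
  have hdeg : M.deg = (n : ℤ) := by rw [Model.deg, M.finrank_eq]
  have hg := hM.rGenus_eq
  set g := rGenus k Fb with hgdef
  set pb := poleDiv k M.xb with hpb
  obtain ⟨h, hh0, hh⟩ := isPrincipal_iff.1 hDm
  -- an effective representative
  obtain ⟨n₁, hn₁⟩ := M.exists_le_mul (max (rBound k Fb) g)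
  obtain ⟨f, hf, hf0⟩ : ∃ f ∈ riemannRochSpace ((n₁ : ℤ) • pb - Db), f ≠ 0 :=
    (Submodule.ne_bot_iff _).1 fun hb => by
      have h1 := hn₁ n₁ le_rfl
      have h2 : ell ((n₁ : ℤ) • pb - Db) = 0 := by rw [ell, hb, finrank_bot]; rfl
      rw [ell_eq (by rw [map_sub, M.degree_poles_red, hDdeg]; omega), map_sub, M.degree_poles_red,
        hDdeg] at h2
      omega
  set Zb : Divisor k Fb := divOf k f + ((n₁ : ℤ) • pb - Db) with hZbdef
  have hZb : 0 ≤ Zb := (mem_rrSpace_iff_divOf hf0).1 hf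
  have hZbdeg : Divisor.degree Zb = (n₁ : ℤ) * M.deg := by
    rw [hZbdef, map_add, degree_divOf, map_sub, M.degree_poles_red, hDdeg]; ring
  obtain ⟨Z, hZ0, hZ⟩ := exists_effective_lift hM hZb
  -- sections
  obtain ⟨N, hN⟩ := M.exists_le_mul (max M.bound (rBound k Fb))
  have hNb := hN N le_rfl
  obtain ⟨G, hGdef⟩ : ∃ G : Divisor L F, G = (m : ℤ) • (((N : ℤ) + n₁) • poleDiv L M.x - Z) :=
    ⟨_, rfl⟩
  obtain ⟨Gb, hGbdef⟩ : ∃ Gb : Divisor k Fb, Gb = (m : ℤ) • (((N : ℤ) + n₁) • pb - Zb) :=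
    ⟨_, rfl⟩
  have hGG : Model.divMap hM G = Gb := by
    rw [hGdef, hGbdef, map_zsmul, map_sub, map_zsmul, Model.divMap_poleDiv hM, hZ]
  have hGdeg : Divisor.degree G = (m : ℤ) * ((N : ℤ) * M.deg) := by
    rw [hGdef, map_zsmul, map_sub, M.degree_poles, ← Model.degree_divMap hM Z, hZ, hZbdeg,
      smul_eq_mul]
    ring
  have hGbdeg : Divisor.degree Gb = (m : ℤ) * ((N : ℤ) * M.deg) := by
    rw [← hGG, Model.degree_divMap, hGdeg]
  have hNm : (N : ℤ) * M.deg ≤ (m : ℤ) * ((N : ℤ) * M.deg) :=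
    le_mul_of_one_le_left (mul_nonneg (Int.natCast_nonneg _) M.deg_pos.le) (by exact_mod_cast hm0)
  have hGbound : M.bound ≤ Divisor.degree G := by rw [hGdeg]; omega
  set W := riemannRochSpace G with hWdef
  set r := Module.finrank L W with hrdef
  obtain ⟨v, w, hvW, hvw, hw⟩ := M.hasOrth W inferInstance
  have hr : (r : ℤ) = (m : ℤ) * ((N : ℤ) * M.deg) + 1 - g := by
    show ell G = _
    rw [ell_eq (by rw [Model.bound] at hGbound; omega), hGdeg, hg]
  have hspan : Submodule.span k (Set.range w) = riemannRochSpace Gb := by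
    rw [← Reduction.image_eq_span M.surj hvW hvw hw (Fintype.card_fin _).symm,
      Model.image_rrSpace hM hGbound, hGG]
  obtain ⟨Δ, hΔ, NN, hNN⟩ := exists_common_den I v fun l => (hvw l).mem
  have hNK : ∀ l, valK M I.yb (NN l) = aeval M.xb (Δ.map π) * w l := fun l => by
    have h1 := (Reduction.res_aeval M.x_res Δ).mul (hvw l)
    rw [hNN l] at h1
    exact (res_valA M I.y_res (NN l)).unique h1
  -- general values
  set avoid : Finset k := bad ∪ (Δ.map π).roots.toFinset ∪ Zb.support.image (placeValue M.xb)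
  obtain ⟨e⟩ : Nonempty (Fin N ↪ ((avoid : Set k)ᶜ : Set k)) :=
    ⟨Fin.valEmbedding.trans (avoid.finite_toSet.infinite_compl.natEmbedding _)⟩
  let ξb : Fin N → k := fun l => (e l : k)
  have hξinj : Function.Injective ξb := Subtype.val_injective.comp e.injective
  have hξav : ∀ l, ξb l ∉ avoid := fun l => (e l).2
  simp only [avoid, Finset.mem_union, not_or] at hξav
  have hgood : ∀ l, I.planeK.Good (ξb l) := fun l => hbad _ (hξav l).1.1
  have hΔξ : ∀ l, (Δ.map π).eval (ξb l) ≠ 0 := fun l h0 =>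
    (hξav l).1.2 (by rw [Multiset.mem_toFinset, mem_roots hΔ]; exact h0)
  let ι := Σ l : Fin N, ↥(I.planeK.fibRoots (ξb l))
  have hcard : (Fintype.card ι : ℤ) = (N : ℤ) * M.deg := by
    rw [hdeg, Fintype.card_sigma, Finset.sum_congr rfl fun l _ => (Fintype.card_coe _).trans
      (I.planeK.card_fibRoots (hgood l)), Finset.sum_const, Finset.card_univ, Fintype.card_fin,
      smul_eq_mul, Nat.cast_mul]
    rfl
  choose Qb hQ1 hQ2 using fun i : ι => I.planeK.exists_place (hgood i.1) i.2.2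
  have hQv : ∀ i, 0 < (Qb i).ord (M.xb - algebraMap k Fb (ξb i.1)) := fun i => by
    rw [show (Qb i).ord (M.xb - algebraMap k Fb (ξb i.1)) = 1 from hQ1 i]; exact one_pos
  have hQinj : Function.Injective Qb := by
    rintro ⟨l, η, hη⟩ ⟨l', η', hη'⟩ he
    have h1 := hQv ⟨l, η, hη⟩
    have h1' := hQv ⟨l', η', hη'⟩
    rw [← he] at h1'
    obtain rfl := hξinj (eq_of_ord_sub_pos h1 h1')
    have h2 := hQ2 ⟨l, η', hη'⟩
    rw [← he] at h2
    obtain rfl : η = η' := eq_of_ordGE_sub (hQ2 ⟨l, η, hη⟩) h2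
    rfl
  have hpb0 : ∀ i, pb (Qb i) = 0 := fun i => by
    have := ord_nonneg_of_sub (hQv i)
    rw [hpb, poleDiv_apply]; omega
  have hZb0 : ∀ i, Zb (Qb i) = 0 := fun i => by
    by_contra hne
    exact (hξav i.1).2 (Finset.mem_image.2 ⟨Qb i, Finsupp.mem_support_iff.2 hne,
      eq_of_ord_sub_pos (ord_sub_placeValue_pos M.transcendental (ord_nonneg_of_sub (hQv i)))
        (hQv i)⟩)
  have hGb0 : ∀ i, Gb (Qb i) = 0 := fun i => by
    simp [hGbdef, hpb0 i, hZb0 i]
  obtain ⟨Eb, hEbdef⟩ : ∃ E : Divisor k Fb, E = sumPts Qb := ⟨_, rfl⟩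
  set q : Fb := ∏ l, (M.xb - algebraMap k Fb (ξb l)) with hqdef
  have hx0 : ∀ l, M.xb - algebraMap k Fb (ξb l) ≠ 0 := fun l =>
    ne_zero_of_transcendental (transcendental_sub M.transcendental _)
  have hq0 : q ≠ 0 := Finset.prod_ne_zero_iff.2 fun l _ => hx0 l
  have hqsum : ∑ l, poleDiv k (M.xb - algebraMap k Fb (ξb l))⁻¹ = divOf k q + (N : ℤ) • pb := by
    rw [hqdef, divOf_prod _ _ fun l _ => hx0 l, ← Finset.sum_congr rfl
      fun l _ => divOf_sub_const M.transcendental (ξb l), Finset.sum_add_distrib, Finset.sum_const,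
      Finset.card_univ, Fintype.card_fin, natCast_zsmul]
  have hEb : Eb = divOf k q + (N : ℤ) • pb := by
    rw [← hqsum, hEbdef]
    refine eq_of_le_of_degree_le (sumPts_le (Finset.sum_nonneg fun l _ => poleDiv_nonneg _) hQinj
      fun i => ?_) (le_of_eq ?_)
    · rw [Finsupp.finsetSum_apply]
      refine le_trans ?_ (Finset.single_le_sum (fun l _ => poleDiv_nonneg _ (Qb i))
        (Finset.mem_univ i.1))
      rw [poleDiv_apply, Place.ord_inv]
      have := hQv i
      omega
    · rw [hqsum, map_add, degree_divOf, M.degree_poles_red, degree_sumPts, hcard]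
      ring
  set F₀ : Fb := q ^ m * f ^ m / h with hF₀
  have hF₀0 : F₀ ≠ 0 := div_ne_zero (mul_ne_zero (pow_ne_zero _ hq0) (pow_ne_zero _ hf0)) hh0
  have hF₀div : divOf k F₀ + Gb = (m : ℤ) • Eb := by
    rw [hF₀, divOf_div (mul_ne_zero (pow_ne_zero _ hq0) (pow_ne_zero _ hf0)) hh0,
      divOf_mul (pow_ne_zero _ hq0) (pow_ne_zero _ hf0), divOf_pow, divOf_pow, ← hh, hGbdef,
      hZbdef, hEb]
    module
  have hord : ∀ i, (Qb i).ord F₀ = m := fun i => by
    have h1 := congrArg (fun D : Divisor k Fb => D (Qb i)) hF₀div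
    simpa [hGb0 i, hEbdef, sumPts_apply_self hQinj] using h1
  obtain ⟨b, hb⟩ := (Submodule.mem_span_range_iff_exists_fun k).1 (hspan.symm ▸
    (mem_rrSpace_iff_divOf hF₀0).2 (show 0 ≤ divOf k F₀ + Gb by
      rw [hF₀div, hEbdef]
      exact zsmul_nonneg (Finset.sum_nonneg fun i _ => Finsupp.single_nonneg.2 zero_le_one)
        (Int.natCast_nonneg m)))
  choose θ₀ hθ₀ using fun l => M.surj (b l)
  choose ξ₀ hξ₀ using fun i : ι => M.surj (ξb i.1)
  choose ηb hηb0 hηb using fun i : ι =>
    I.planeK.exists_jet (hgood i.1) ((I.planeK.mem_fibRoots (hgood i.1)).1 i.2.2) (m + 1)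
  have hcomb : ∀ θ : Fin r → k, I.planeK.val (comb π NN θ) =
      aeval M.xb (Δ.map π) * ∑ l, θ l • w l := fun θ => by
    rw [comb, map_sum, Finset.mul_sum]
    refine Finset.sum_congr rfl fun l _ => ?_
    rw [map_mul, PlaneData.val_C, aeval_C, PlaneData.val,
      show ev2 (algebraMap k Fb) I.planeK.x I.planeK.y ((NN l).map (mapRingHom π)) =
        valK M I.yb (NN l) from ev2_map _ _ _ _ _, hNK, Algebra.smul_def]
    ring
  have hjets : ∀ (i : ι) (j : ℕ), j ≤ m + 1 → ∀ P : k[X][X],
      OrdGE (Qb i) j (I.planeK.val P) ↔ (X : k[X]) ^ j ∣ jet (ξb i.1) (ηb i) P := fun i j hj P => by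
    have h1 := (I.planeK.ordGE_val_iff (hgood i.1) (hQv i) (hQ2 i) (hηb0 i)
      ((pow_dvd_pow X hj).trans (hηb i)) P).1
    rwa [I.planeK.ord_eq_one (hgood i.1) (hQv i), mul_one] at h1
  have hΔord : ∀ i, aeval M.xb (Δ.map π) ≠ 0 ∧ (Qb i).ord (aeval M.xb (Δ.map π)) = 0 :=
    fun i => ⟨aeval_ne_zero M.transcendental hΔ, I.planeK.ord_aeval_x (hQv i) (hΔξ i.1)⟩
  let T : (Fin r → k) →ₗ[k] Fb := Fintype.linearCombination k w
  have hT : ∀ θ, T θ = ∑ l, θ l • w l := fun θ => Fintype.linearCombination_apply k w θ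
  obtain ⟨H, hHdef⟩ : ∃ H : Divisor k Fb, H = Gb - ((m - 1 : ℕ) : ℤ) • Eb := ⟨_, rfl⟩
  let U : Submodule k (Fin r → k) := (riemannRochSpace H).comap T
  have hdimU : (Module.finrank k U : ℤ) ≤ (Fintype.card ι : ℤ) + 1 - g := by
    let T' : ↥U →ₗ[k] ↥(riemannRochSpace H) :=
      LinearMap.codRestrict _ (T.comp U.subtype) fun θ => θ.2
    have hinj : Function.Injective T' := (injective_iff_map_eq_zero T').2 fun θ h0 => by
      have h1 : T θ.1 = 0 := congrArg Subtype.val h0
      rw [hT] at h1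
      exact Subtype.ext (funext (Fintype.linearIndependent_iff.1 hw _ h1))
    have h1 : (Module.finrank k U : ℤ) ≤ ell H :=
      Nat.cast_le.2 (LinearMap.finrank_le_finrank_of_injective hinj)
    have h2 : Divisor.degree H = (Fintype.card ι : ℤ) := by
      rw [hHdef, map_sub, map_zsmul Divisor.degree _ Eb, hEbdef, degree_sumPts, hGbdeg, hcard, smul_eq_mul,
        Nat.cast_sub (Nat.one_le_of_lt hm0)]
      push_cast; ring
    rwa [ell_eq (by rw [h2, hcard]; omega), h2] at h1
  obtain ⟨θ, ξ, η, hθ, hξ, hη0, hηΦ, hηF⟩ := exists_solution M.surj hA hm I.Φ NN θ₀ ξ₀ ηb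
    (fun i => by rw [hξ₀]; exact hηb i)
    (fun i => by
      rw [hξ₀, jet_eval_zero, hηb0]
      exact (hgood i.1).sep _ ((I.planeK.mem_fibRoots (hgood i.1)).1 i.2.2))
    (fun i => by
      rw [hξ₀, show (fun l => π (θ₀ l)) = b from funext hθ₀]
      have h1 : I.planeK.val (comb π NN b) = aeval M.xb (Δ.map π) * F₀ := by rw [hcomb, hb]
      have h2 : (Qb i).ord (I.planeK.val (comb π NN b)) = m := by
        rw [h1, (Qb i).ord_mul (hΔord i).1 hF₀0, (hΔord i).2, hord, zero_add]
      refine ⟨(hjets i m m.le_succ _).1 (ordGE_of_le h2.ge), fun h3 => ?_⟩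
      have h4 := ((hjets i (m + 1) le_rfl _).2 h3).le_ord (h1 ▸ mul_ne_zero (hΔord i).1 hF₀0)
      rw [h2] at h4
      omega)
    U
    (fun θ hθ => mem_rrSpace.2 fun x => by
      rw [hT, hHdef, Finsupp.sub_apply, Finsupp.smul_apply, smul_eq_mul]
      by_cases hx : ∃ i, Qb i = x
      · obtain ⟨i, rfl⟩ := hx
        rw [hGb0 i, hEbdef, sumPts_apply_self hQinj, mul_one, zero_sub, neg_neg]
        have h1 := (hjets i (m - 1) (by omega) _).2 (by have := hθ i; rwa [hξ₀] at this)
        rw [hcomb] at h1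
        have h2 := (ordGE_of_le ((Qb i).ord_inv (aeval M.xb (Δ.map π))).ge).mul h1
        rwa [(hΔord i).2, neg_zero, zero_add, ← mul_assoc, inv_mul_cancel₀ (hΔord i).1,
          one_mul] at h2
      · push Not at hx
        rw [hEbdef, sumPts_apply_of_ne hx, mul_zero, sub_zero]
        exact mem_rrSpace.1 (Submodule.sum_mem _ fun l _ =>
          Submodule.smul_mem _ _ (hspan ▸ Submodule.subset_span ⟨l, rfl⟩)) x)
    (by
      zify
      rw [← hcard] at hr
      rw [hr]
      linarith [hdimU])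
  -- the function and its zeros
  set Φf : F := ∑ l, (θ l : L) • v l with hΦf
  have hres : M.Res Φf F₀ := by
    rw [← hb, ← funext fun l => (hθ l).trans (hθ₀ l)]
    exact Reduction.Res.sum fun l _ => (hvw l).smul (θ l)
  have hΦ0 : Φf ≠ 0 := hres.ne_zero hF₀0
  have hΦW : Φf ∈ riemannRochSpace G :=
    Submodule.sum_mem _ fun l _ => Submodule.smul_mem _ _ (hvW l)
  have hπξ : ∀ i, π (ξ i) = ξb i.1 := fun i => (hξ i).trans (hξ₀ i)
  have hπη : ∀ i : ι, π ((η i).eval 0) = (i.2 : k) := fun i => (hη0 i).trans (hηb0 i)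
  choose Q hQx hQy hQpl using fun i : ι => exists_place_lift hM I (ξ := ξ i)
    (η := (η i).eval 0) (Qb := Qb i) (by rw [hπξ]; exact hgood i.1)
    (by
      obtain ⟨c, hc⟩ := hηΦ i
      rw [← jet_eval_zero, hc, eval_mul, eval_pow, eval_X, zero_pow hm0.ne', zero_mul])
    (by rw [hπξ]; exact hQv i) (by rw [hπη]; exact hQ2 i)
  have hinjQ : Function.Injective Q := fun i j hij =>
    hQinj (by rw [← hQpl i, ← hQpl j, hij])
  have hG0 : ∀ i, G (Q i) = 0 := fun i => by
    have h1 : poleDiv L M.x (Q i) = 0 := by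
      have := ord_nonneg_of_sub (v := Q i) (x := M.x) (a := (ξ i : L)) (by rw [hQx i]; exact one_pos)
      rw [poleDiv_apply]; omega
    have h2 : Z (Q i) = 0 := by
      by_contra hne
      have h3 := one_le_divMap_apply hM hZ0 (P := Q i) (lt_of_le_of_ne (hZ0 (Q i)) (Ne.symm hne))
      rw [hZ, hQpl i, hZb0 i] at h3
      omega
    simp [hGdef, h1, h2]
  have hordQ : ∀ i, (m : ℤ) ≤ (Q i).ord Φf := fun i => by
    have hgL : I.planeL.Good (ξ i : L) := I.good_lift (by rw [hπξ]; exact hgood i.1)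
    have hv' : 0 < (Q i).ord (I.planeL.x - algebraMap L F (ξ i)) := by
      show 0 < (Q i).ord (M.x - algebraMap L F (ξ i))
      rw [hQx i]; exact one_pos
    have hj : ∀ P : A[X][X], (X : A[X]) ^ m ∣ jet (ξ i) (η i) P →
        (X : L[X]) ^ m ∣ jet (ξ i : L) ((η i).map A.subtype) (P.map (mapRingHom A.subtype)) :=
      fun P hP => by
        have h1 := map_dvd (mapRingHom A.subtype) hP
        rwa [map_pow, coe_mapRingHom, map_X, jet_map] at h1
    have h1 := (I.planeL.ordGE_val_iff hgL hv' (hQy i) (η := (η i).map A.subtype)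
      (by rw [← coeff_zero_eq_eval_zero, coeff_map, coeff_zero_eq_eval_zero]; rfl)
      (hj _ (hηΦ i)) ((∑ l, C (C (θ l)) * NN l).map (mapRingHom A.subtype))).1.2 (hj _ (hηF i))
    rw [I.planeL.ord_eq_one hgL hv', mul_one, PlaneData.val,
      show ev2 (algebraMap L F) I.planeL.x I.planeL.y
        ((∑ l, C (C (θ l)) * NN l).map (mapRingHom A.subtype)) =
          valA M I.y (∑ l, C (C (θ l)) * NN l) from ev2_map _ _ _ _ _,
      show valA M I.y (∑ l, C (C (θ l)) * NN l) = aeval M.x (Δ.map A.subtype) * Φf by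
        rw [map_sum, hΦf, Finset.mul_sum]
        refine Finset.sum_congr rfl fun l _ => ?_
        rw [map_mul, ← hNN l, valA, ev2_apply, eval₂_C, coe_eval₂RingHom, eval₂_C,
          Algebra.smul_def]
        simp only [RingHom.comp_apply, ValuationSubring.subtype_apply]
        ring] at h1
    have h2 : (Δ.map A.subtype).eval (ξ i : L) ≠ 0 := by
      rw [show (ξ i : L) = A.subtype (ξ i) from rfl, eval_map_apply]
      intro h0
      have h3 : Δ.eval (ξ i) = 0 := Subtype.ext h0
      refine hΔξ i.1 ?_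
      rw [← hπξ, eval_map_apply, h3, map_zero]
    have h3 := I.planeL.ord_aeval_x hv' h2
    have h4 : aeval M.x (Δ.map A.subtype) ≠ 0 :=
      aeval_ne_zero M.transcendental_x fun h0 => h2 (by rw [h0, eval_zero])
    have h5 := h1.le_ord (mul_ne_zero h4 hΦ0)
    rw [(Q i).ord_mul h4 hΦ0] at h5
    change (Q i).ord (aeval M.x (Δ.map A.subtype)) = 0 at h3
    omega
  have hZF : (m : ℤ) • sumPts Q = divOf L Φf + G := by
    refine eq_of_le_of_degree_le (fun x => ?_) (le_of_eq ?_)
    · rw [Finsupp.smul_apply, smul_eq_mul]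
      by_cases hx : ∃ i, Q i = x
      · obtain ⟨i, rfl⟩ := hx
        rw [sumPts_apply_self hinjQ, mul_one, Finsupp.add_apply, hG0, add_zero, divOf_apply]
        exact hordQ i
      · push Not at hx
        rw [sumPts_apply_of_ne hx, mul_zero]
        exact (mem_rrSpace_iff_divOf hΦ0).1 hΦW x
    · rw [map_add, degree_divOf, hGdeg, map_zsmul, degree_sumPts, hcard, zero_add, smul_eq_mul]
  refine ⟨((N : ℤ) + n₁) • poleDiv L M.x - Z - sumPts Q, ?_, ?_, ?_⟩
  · rw [map_sub, map_sub, M.degree_poles, ← Model.degree_divMap hM Z, hZ, hZbdeg, degree_sumPts,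
      hcard]
    ring
  · refine isPrincipal_iff.2 ⟨Φf⁻¹, inv_ne_zero hΦ0, ?_⟩
    rw [show divOf L Φf⁻¹ = -divOf L Φf from Finsupp.ext fun x => by
        rw [divOf_apply, Place.ord_inv, Finsupp.neg_apply, divOf_apply],
      eq_sub_of_add_eq hZF.symm, hGdef]
    module
  · have hQmap : Model.divMap hM (sumPts Q) = Eb := by
      rw [sumPts, map_sum, hEbdef, sumPts]
      exact Finset.sum_congr rfl fun i _ => by rw [Model.divMap_single, hQpl i]
    refine isPrincipal_iff.2 ⟨(q * f)⁻¹, inv_ne_zero (mul_ne_zero hq0 hf0), ?_⟩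
    rw [map_sub, map_sub, map_zsmul, Model.divMap_poleDiv hM, hZ, hQmap, hZbdef, hEb,
      show divOf k (q * f)⁻¹ = -divOf k (q * f) from Finsupp.ext fun x => by
        rw [divOf_apply, Place.ord_inv, Finsupp.neg_apply, divOf_apply],
      divOf_mul hq0 hf0]
    module

end FLTAgent.Jac27.Lift
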