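import Fermat.Agent.Jac27.Lift.Surjective
import Fermat.Agent.Jac27.Interface

/-!
# Specialisation is bijective on torsion of order prime to the residue characteristic
-/

set_option autoImplicit false
set_option linter.style.haveILetI false
set_option linter.unusedSectionVars false

noncomputable section

namespace FLTAgent.Jac27.Lift

open AlgebraicCurve FLTAgent.Curves FLTAgent.Specialization

variable {L k : Type*} [Field L] [Field k] {A : ValuationSubring L} {π : A →+* k}
variable {F Fb : Type*} [Field F] [Field Fb] [Algebra L F] [Algebra k Fb]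
variable [IsAlgClosed L] [IsFunctionField L F] [IsAlgClosed k] [IsFunctionField k Fb]
variable {M : Model π F Fb} (hM : M.Smooth)

theorem mk_eq_zero {K E : Type*} [Field K] [Field E] [Algebra K E]
    (D : Divisor.degZero (K := K) (F := E)) :
    Pic0.mk D = 0 ↔ Divisor.IsPrincipal (D : Divisor K E) := by
  rw [Pic0.mk, QuotientAddGroup.eq_zero_iff, AddSubgroup.mem_addSubgroupOf, Divisor.mem_principal]

/-- Specialisation of classes. -/
def spMap : Pic0 L F →+ Pic0 k Fb :=
  QuotientAddGroup.map _ _
    (((Model.divMap hM).comp (Divisor.degZero (K := L) (F := F)).subtype).codRestrict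
      (Divisor.degZero (K := k) (F := Fb)) fun D => by
        rw [Divisor.mem_degZero]
        exact (Model.degree_divMap hM _).trans D.2)
    fun _ hD => isPrincipal_divMap hM hD

theorem spMap_mk (D : Divisor.degZero (K := L) (F := F)) :
    spMap hM (Pic0.mk D) = Pic0.mk ⟨Model.divMap hM D,
      (Model.degree_divMap hM _).trans D.2⟩ := rfl

theorem mk_mem_torsion {K E : Type*} [Field K] [Field E] [Algebra K E] {m : ℕ}
    (D : Divisor.degZero (K := K) (F := E)) :
    Pic0.mk D ∈ Pic0.torsion K E m ↔ Divisor.IsPrincipal (m • (D : Divisor K E)) := by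
  rw [Pic0.mem_torsion, natCast_zsmul, ← AddSubmonoidClass.coe_nsmul, ← mk_eq_zero]
  rfl

include hM in
/-- Torsion of order prime to the residue characteristic is unchanged by specialisation. -/
theorem card_torsion_eq (hA : RankOne π)
    (hnk : (Module.finrank (IntermediateField.adjoin k {M.xb}) Fb : k) ≠ 0) {m : ℕ}
    (hm : (m : k) ≠ 0) :
    Nat.card (Pic0.torsion L F m) = Nat.card (Pic0.torsion k Fb m) := by
  let f : Pic0.torsion L F m →+ Pic0.torsion k Fb m :=
    ((spMap hM).comp (Pic0.torsion L F m).subtype).codRestrict (Pic0.torsion k Fb m) fun x => by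
      rw [Pic0.mem_torsion]
      show (m : ℤ) • spMap hM x.1 = 0
      rw [← map_zsmul, Pic0.mem_torsion.1 x.2, map_zero]
  refine Nat.card_eq_of_bijective f ⟨(injective_iff_map_eq_zero f).2 fun x hx => ?_, fun y => ?_⟩
  · obtain ⟨x, hmem⟩ := x
    obtain ⟨D, rfl⟩ := Pic0.mk_surjective x
    have h1 : spMap hM (Pic0.mk D) = 0 := congrArg Subtype.val hx
    rw [spMap_mk, mk_eq_zero] at h1
    refine Subtype.ext ((mk_eq_zero D).2 ?_)
    exact Model.isPrincipal_of_divMap hM hA hm D.2 ((mk_mem_torsion D).1 hmem) h1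
  · obtain ⟨y, hmem⟩ := y
    obtain ⟨Db, rfl⟩ := Pic0.mk_surjective y
    obtain ⟨D, hD0, hDm, hDs⟩ := exists_lift hM hA hnk hm Db.2 ((mk_mem_torsion Db).1 hmem)
    refine ⟨⟨Pic0.mk ⟨D, hD0⟩, (mk_mem_torsion _).2 hDm⟩, Subtype.ext ?_⟩
    show spMap hM (Pic0.mk ⟨D, hD0⟩) = Pic0.mk Db
    rw [spMap_mk, ← sub_eq_zero]
    exact (mk_eq_zero _).2 hDs

end FLTAgent.Jac27.Lift

namespace FLTAgent.Jac27

open AlgebraicCurve FLTAgent.Curves FLTAgent.Specialization

universe u v

/-- Specialisation is bijective on torsion of order prime to the residue characteristic. -/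
theorem targetLift : TargetLift.{u, v} := by
  intro L k _ _ _ _ A π F Fb _ _ _ _ _ _ M hM hA m hm
  obtain ⟨M', hM', hnk⟩ := Lift.exists_model M hM
  exact Lift.card_torsion_eq hM' hA hnk hm

end FLTAgent.Jac27
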